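/-
Common definitions for the proof of `CuspForm.HasIntegralStructure N k` (all weights `k`).
Used by S23 (k = 2) and S22.
-/
import Mathlib
import Fermat.Prelude.Def_CuspForm_IntegralStructure
import Fermat.Prelude.Thm_CongruenceSubgroup_one_mem_strictPeriods_Gamma0

set_option autoImplicit false

open UpperHalfPlane ModularForm CongruenceSubgroup
open scoped MatrixGroups

namespace Fermat.Agent.S23

/-- The `ℂ`-span of the power series with integer coefficients. -/
def intSpan : Submodule ℂ (PowerSeries ℂ) :=
  Submodule.span ℂ (Set.range (PowerSeries.map (Int.castRingHom ℂ)))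

end Fermat.Agent.S23
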