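/-
Module D (converse).  A formal power series `φ` which is a root of a monic polynomial whose lower
coefficients are level one cusp forms of the right weights, and with `φ * b = a` for modular forms
`a, b ≠ 0` on `Γ₀(N)` of weights `W + k`, `W`, is the `q`-expansion of a cusp form of weight `k`.

Maths: `R := a^(μ+1) + Σ e_j a^(μ-j) b^(j+1)` has zero `q`-expansion, so `R = 0` on `ℍ`; hence
`‖a z‖ ≤ (1 + Σ ‖e_j z‖) * ‖b z‖`; removable singularities give a holomorphic `g` with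
`g * b = a`; invariance of `g` from that of `a, b`; `g ∣ γ` is a root of the same polynomial for all
`γ ∈ SL(2,ℤ)`, whose coefficients tend to `0` at `i∞`, so `g ∣ γ → 0`.
-/
import Fermat.Agent.S23.Defs

set_option autoImplicit false

open UpperHalfPlane ModularForm CongruenceSubgroup Filter Topology Function Set
open scoped MatrixGroups Manifold

namespace Fermat.Agent.S23

/-- root bound -/
theorem conv_root_bound (μ : ℕ) (c : ℕ → ℂ) (t : ℂ)
    (h : t ^ (μ + 1) + ∑ j ∈ Finset.range (μ + 1), c j * t ^ (μ - j) = 0) :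
    (‖t‖ ≤ 1 ∧ ‖t‖ ^ (μ + 1) ≤ ∑ j ∈ Finset.range (μ + 1), ‖c j‖) ∨
      (1 < ‖t‖ ∧ ‖t‖ ≤ ∑ j ∈ Finset.range (μ + 1), ‖c j‖) := by
  have h1 : ‖t‖ ^ (μ + 1) ≤ ∑ j ∈ Finset.range (μ + 1), ‖c j‖ * ‖t‖ ^ (μ - j) := by
    have : t ^ (μ + 1) = - ∑ j ∈ Finset.range (μ + 1), c j * t ^ (μ - j) :=
      eq_neg_of_add_eq_zero_left h
    rw [← norm_pow, this, norm_neg]
    refine (norm_sum_le _ _).trans (le_of_eq ?_)
    refine Finset.sum_congr rfl fun j _ => ?_
    rw [norm_mul, norm_pow]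
  rcases le_or_gt ‖t‖ 1 with ht | ht
  · left
    refine ⟨ht, h1.trans ?_⟩
    refine Finset.sum_le_sum fun j _ => ?_
    exact mul_le_of_le_one_right (norm_nonneg _) (pow_le_one₀ (norm_nonneg _) ht)
  · right
    refine ⟨ht, ?_⟩
    have hpos : 0 < ‖t‖ ^ μ := pow_pos (lt_trans zero_lt_one ht) _
    have h2 : ∑ j ∈ Finset.range (μ + 1), ‖c j‖ * ‖t‖ ^ (μ - j) ≤
        (∑ j ∈ Finset.range (μ + 1), ‖c j‖) * ‖t‖ ^ μ := by
      rw [Finset.sum_mul]
      refine Finset.sum_le_sum fun j _ => ?_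
      exact mul_le_mul_of_nonneg_left (pow_le_pow_right₀ ht.le (Nat.sub_le _ _)) (norm_nonneg _)
    have h3 := h1.trans h2
    rw [pow_succ, mul_comm] at h3
    exact le_of_mul_le_mul_right h3 hpos

/-- holomorphic quotient -/
theorem conv_exists_quotient {U : Set ℂ} (hU : IsOpen U) (hUc : IsPreconnected U)
    {A B : ℂ → ℂ} (hA : DifferentiableOn ℂ A U) (hB : DifferentiableOn ℂ B U)
    (hB0 : ∃ z ∈ U, B z ≠ 0) {M : ℂ → ℝ} (hM : ContinuousOn M U)
    (hbd : ∀ z ∈ U, ‖A z‖ ≤ M z * ‖B z‖) :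
    ∃ G : ℂ → ℂ, DifferentiableOn ℂ G U ∧ ∀ z ∈ U, G z * B z = A z := by
  classical
  have hBan : AnalyticOnNhd ℂ B U := hB.analyticOnNhd hU
  -- zeros of `B` are isolated
  have hiso : ∀ z ∈ U, ∀ᶠ w in 𝓝[≠] z, B w ≠ 0 := by
    intro z hz
    rcases (hBan z hz).eventually_eq_zero_or_eventually_ne_zero with h | h
    · exfalso
      obtain ⟨w, hw, hw0⟩ := hB0
      exact hw0 (hBan.eqOn_zero_of_preconnected_of_eventuallyEq_zero hUc hz h hw)
    · exact h
  set f : ℂ → ℂ := fun z => A z / B z with hf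
  set G : ℂ → ℂ := fun z => limUnder (𝓝[≠] z) f with hG
  have hGne : ∀ z ∈ U, B z ≠ 0 → G z = f z := by
    intro z hz hz0
    have hc : ContinuousAt f z :=
      ((hA.differentiableAt (hU.mem_nhds hz)).continuousAt).div
        ((hB.differentiableAt (hU.mem_nhds hz)).continuousAt) hz0
    exact (hc.tendsto.mono_left nhdsWithin_le_nhds).limUnder_eq
  refine ⟨G, ?_, ?_⟩
  · intro z0 hz0
    refine DifferentiableAt.differentiableWithinAt ?_
    -- a good neighbourhood
    have h1 : ∀ᶠ w in 𝓝 z0, w ∈ U := hU.mem_nhds hz0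
    have h2 : ∀ᶠ w in 𝓝 z0, M w < M z0 + 1 :=
      (hM.continuousAt (hU.mem_nhds hz0)).eventually_lt continuousAt_const (by simp)
    have h3 : ∀ᶠ w in 𝓝 z0, w ≠ z0 → B w ≠ 0 := by
      have := hiso z0 hz0
      rwa [eventually_nhdsWithin_iff] at this
    obtain ⟨V, hVsub, hVo, hzV⟩ := eventually_nhds_iff.mp (h1.and (h2.and h3))
    have hVn : V ∈ 𝓝 z0 := hVo.mem_nhds hzV
    have hd : DifferentiableOn ℂ f (V \ {z0}) := by
      intro w hw
      have hwU := (hVsub w hw.1).1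
      refine DifferentiableAt.differentiableWithinAt ?_
      exact (hA.differentiableAt (hU.mem_nhds hwU)).div (hB.differentiableAt (hU.mem_nhds hwU))
        ((hVsub w hw.1).2.2 hw.2)
    have hb : BddAbove (norm ∘ f '' (V \ {z0})) := by
      refine ⟨M z0 + 1, ?_⟩
      rintro _ ⟨w, hw, rfl⟩
      have hwU := (hVsub w hw.1).1
      have hB0' : B w ≠ 0 := (hVsub w hw.1).2.2 hw.2
      have : ‖f w‖ ≤ M w := by
        simp only [hf, norm_div]
        rw [div_le_iff₀ (norm_pos_iff.mpr hB0')]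
        exact hbd w hwU
      exact this.trans (hVsub w hw.1).2.1.le
    have key := Complex.differentiableOn_update_limUnder_of_bddAbove hVn hd hb
    have hEq : G =ᶠ[𝓝 z0] update f z0 (limUnder (𝓝[≠] z0) f) := by
      filter_upwards [hVn] with w hw
      by_cases hwz : w = z0
      · subst hwz; simp [hG]
      · rw [update_of_ne hwz]
        exact hGne w (hVsub w hw).1 ((hVsub w hw).2.2 hwz)
    exact (key.differentiableAt hVn).congr_of_eventuallyEq hEq
  · intro z hz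
    by_cases hz0 : B z = 0
    · have := hbd z hz
      rw [hz0, norm_zero, mul_zero] at this
      rw [hz0, mul_zero]
      exact (norm_le_zero_iff.mp this).symm
    · rw [hGne z hz hz0]
      simp only [hf]
      field_simp

/-- 1-periodic, holomorphic and bounded at `i∞`. -/
structure ConvNice (f : ℍ → ℂ) : Prop where
  per : Function.Periodic (f ∘ ofComplex) (1 : ℝ)
  hol : MDiff f
  bdd : IsBoundedAtImInfty f

namespace ConvNice

variable {f g : ℍ → ℂ}

theorem analytic (hf : ConvNice f) : AnalyticAt ℂ (cuspFunction 1 f) 0 :=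
  analyticAt_cuspFunction_zero one_pos hf.per hf.hol hf.bdd

theorem mul (hf : ConvNice f) (hg : ConvNice g) : ConvNice (f * g) where
  per := hf.per.mul hg.per
  hol := hf.hol.mul hg.hol
  bdd := hf.bdd.mul hg.bdd

theorem add (hf : ConvNice f) (hg : ConvNice g) : ConvNice (f + g) where
  per := hf.per.add hg.per
  hol := hf.hol.add hg.hol
  bdd := hf.bdd.add hg.bdd

theorem one : ConvNice (1 : ℍ → ℂ) where
  per := fun _ => rfl
  hol := mdifferentiable_const
  bdd := const_boundedAtFilter _ _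

theorem zero : ConvNice (0 : ℍ → ℂ) where
  per := fun _ => rfl
  hol := mdifferentiable_const
  bdd := const_boundedAtFilter _ _

theorem pow (hf : ConvNice f) (n : ℕ) : ConvNice (f ^ n) := by
  induction n with
  | zero => simpa using one
  | succ n ih => rw [pow_succ]; exact ih.mul hf

theorem sum {ι : Type*} (s : Finset ι) {F : ι → ℍ → ℂ} (hF : ∀ i ∈ s, ConvNice (F i)) :
    ConvNice (∑ i ∈ s, F i) := by
  classical
  induction s using Finset.induction_on with
  | empty => simpa using zero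
  | insert i t hi ih =>
    rw [Finset.sum_insert hi]
    exact (hF i (Finset.mem_insert_self _ _)).add
      (ih fun j hj => hF j (Finset.mem_insert_of_mem hj))

theorem qExp_mul (hf : ConvNice f) (hg : ConvNice g) :
    qExpansion 1 (f * g) = qExpansion 1 f * qExpansion 1 g :=
  qExpansion_mul hf.analytic hg.analytic

theorem qExp_add (hf : ConvNice f) (hg : ConvNice g) :
    qExpansion 1 (f + g) = qExpansion 1 f + qExpansion 1 g :=
  qExpansion_add hf.analytic hg.analytic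

theorem qExp_pow (hf : ConvNice f) (n : ℕ) :
    qExpansion 1 (f ^ n) = qExpansion 1 f ^ n := by
  induction n with
  | zero => simpa using qExpansion_one 1
  | succ n ih => rw [pow_succ, (hf.pow n).qExp_mul hf, ih, pow_succ]

theorem qExp_sum {ι : Type*} (s : Finset ι) {F : ι → ℍ → ℂ} (hF : ∀ i ∈ s, ConvNice (F i)) :
    qExpansion 1 (∑ i ∈ s, F i) = ∑ i ∈ s, qExpansion 1 (F i) := by
  classical
  induction s using Finset.induction_on with
  | empty => simpa using qExpansion_zero 1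
  | insert i t hi ih =>
    rw [Finset.sum_insert hi, Finset.sum_insert hi,
      (hF i (Finset.mem_insert_self _ _)).qExp_add
        (sum t fun j hj => hF j (Finset.mem_insert_of_mem hj)),
      ih fun j hj => hF j (Finset.mem_insert_of_mem hj)]

theorem eq_zero (hf : ConvNice f) (h : qExpansion 1 f = 0) : f = 0 :=
  (qExpansion_eq_zero_iff one_pos hf.per hf.hol hf.bdd).mp h

theorem of_modularForm {Γ : Subgroup (GL (Fin 2) ℝ)} {k : ℤ} {F : Type*} [FunLike F ℍ ℂ]
    [ModularFormClass F Γ k] (hΓ : (1 : ℝ) ∈ Γ.strictPeriods) (f : F) : ConvNice (⇑f) :=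
  haveI : Fact (IsCusp OnePoint.infty Γ) := ⟨Γ.isCusp_of_mem_strictPeriods one_pos hΓ⟩
  { per := SlashInvariantFormClass.periodic_comp_ofComplex f hΓ
    hol := ModularFormClass.holo f
    bdd := ModularFormClass.bdd_at_infty f }

end ConvNice

theorem conv_isolated {U : Set ℂ} (hU : IsOpen U) (hUc : IsPreconnected U)
    {B : ℂ → ℂ} (hB : DifferentiableOn ℂ B U) (hB0 : ∃ z ∈ U, B z ≠ 0) :
    ∀ z ∈ U, ∀ᶠ w in 𝓝[≠] z, B w ≠ 0 := by
  have hBan : AnalyticOnNhd ℂ B U := hB.analyticOnNhd hU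
  intro z hz
  rcases (hBan z hz).eventually_eq_zero_or_eventually_ne_zero with h | h
  · exfalso
    obtain ⟨w, hw, hw0⟩ := hB0
    exact hw0 (hBan.eqOn_zero_of_preconnected_of_eventuallyEq_zero hUc hz h hw)
  · exact h

theorem conv_isPreconnected : IsPreconnected {z : ℂ | 0 < z.im} :=
  (convex_halfSpace_im_gt 0).isPreconnected

theorem conv_exists_ne {b : ℍ → ℂ} (hb0 : b ≠ 0) :
    ∃ z ∈ {z : ℂ | 0 < z.im}, (b ∘ ofComplex) z ≠ 0 := by
  obtain ⟨τ, hτ⟩ := Function.ne_iff.mp hb0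
  exact ⟨τ, τ.im_pos, by simpa using hτ⟩

theorem conv_eq_zero_of_mul_eq_zero {b F : ℍ → ℂ} (hb : MDiff b) (hb0 : b ≠ 0)
    (hF : Continuous F) (h : F * b = 0) : F = 0 := by
  funext τ
  have hτ : F τ * b τ = 0 := congrFun h τ
  by_cases hbτ : b τ = 0
  · have hiso := conv_isolated isOpen_upperHalfPlaneSet conv_isPreconnected
      (UpperHalfPlane.mdifferentiable_iff.mp hb) (conv_exists_ne hb0) τ τ.im_pos
    have hU : ∀ᶠ w in 𝓝[≠] (τ : ℂ), w ∈ {z : ℂ | 0 < z.im} :=
      nhdsWithin_le_nhds (isOpen_upperHalfPlaneSet.mem_nhds τ.im_pos)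
    have hz : ∀ᶠ w in 𝓝[≠] (τ : ℂ), (F ∘ ofComplex) w = 0 := by
      filter_upwards [hiso, hU] with w hw _
      have := congrFun h (ofComplex w)
      simp only [Pi.mul_apply, Pi.zero_apply, mul_eq_zero] at this
      exact this.resolve_right hw
    have hc : ContinuousAt (F ∘ ofComplex) (τ : ℂ) :=
      hF.continuousAt.comp (mdifferentiableAt_ofComplex τ.im_pos).continuousAt
    have ht : Tendsto (F ∘ ofComplex) (𝓝[≠] (τ : ℂ)) (𝓝 ((F ∘ ofComplex) τ)) :=
      hc.tendsto.mono_left nhdsWithin_le_nhds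
    have ht0 : Tendsto (F ∘ ofComplex) (𝓝[≠] (τ : ℂ)) (𝓝 0) :=
      tendsto_const_nhds.congr' (hz.mono fun _ h => h.symm)
    have := tendsto_nhds_unique ht ht0
    simpa using this
  · simpa [hbτ] using hτ

theorem conv_alg {R : Type*} [CommRing R] (μ : ℕ) (E : ℕ → R) (t B : R) :
    (t * B) ^ (μ + 1) + ∑ j ∈ Finset.range (μ + 1), E j * (t * B) ^ (μ - j) * B ^ (j + 1) =
      (t ^ (μ + 1) + ∑ j ∈ Finset.range (μ + 1), E j * t ^ (μ - j)) * B ^ (μ + 1) := by
  rw [add_mul, Finset.sum_mul, mul_pow]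
  congr 1
  refine Finset.sum_congr rfl fun j hj => ?_
  have hj' : j ≤ μ := Nat.lt_succ_iff.mp (Finset.mem_range.mp hj)
  have : B ^ (μ + 1) = B ^ (μ - j) * B ^ (j + 1) := by
    rw [← pow_add]; congr 1; omega
  rw [this, mul_pow]; ring

theorem conv_tendsto_zero {l : Filter ℍ} (μ : ℕ) (c : ℕ → ℍ → ℂ) (t : ℍ → ℂ)
    (hc : ∀ j, Tendsto (c j) l (𝓝 0))
    (h : ∀ z, t z ^ (μ + 1) + ∑ j ∈ Finset.range (μ + 1), c j z * t z ^ (μ - j) = 0) :
    Tendsto t l (𝓝 0) := by
  have hs : Tendsto (fun z => ∑ j ∈ Finset.range (μ + 1), ‖c j z‖) l (𝓝 0) := by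
    have : Tendsto (fun z => ∑ j ∈ Finset.range (μ + 1), ‖c j z‖) l
        (𝓝 (∑ j ∈ Finset.range (μ + 1), (0 : ℝ))) :=
      tendsto_finsetSum _ fun j _ => by simpa using (hc j).norm
    simpa using this
  rw [Metric.tendsto_nhds]
  intro δ hδ
  set δ' := min δ 1 with hδ'
  have hδ'pos : 0 < δ' := lt_min hδ one_pos
  have hev : ∀ᶠ z in l, ∑ j ∈ Finset.range (μ + 1), ‖c j z‖ < δ' ^ (μ + 1) :=
    hs.eventually_lt tendsto_const_nhds (pow_pos hδ'pos _)
  filter_upwards [hev] with z hz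
  rw [dist_zero_right]
  have hle1 : δ' ^ (μ + 1) ≤ 1 := pow_le_one₀ hδ'pos.le (min_le_right _ _)
  rcases conv_root_bound μ (fun j => c j z) (t z) (h z) with ⟨_, h2⟩ | ⟨h1, h2⟩
  · have : ‖t z‖ ^ (μ + 1) < δ' ^ (μ + 1) := lt_of_le_of_lt h2 hz
    exact lt_of_lt_of_le (lt_of_pow_lt_pow_left₀ _ hδ'pos.le this) (min_le_left _ _)
  · exfalso
    linarith

theorem conv_eq_zero_of_mul_pow_eq_zero {b F : ℍ → ℂ} (hb : MDiff b) (hb0 : b ≠ 0)
    (hF : Continuous F) (n : ℕ) (h : F * b ^ n = 0) : F = 0 := by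
  induction n with
  | zero => simpa using h
  | succ n ih =>
    apply ih
    apply conv_eq_zero_of_mul_eq_zero hb hb0 (hF.mul (hb.continuous.pow n))
    rw [mul_assoc, ← pow_succ]; exact h

theorem conv (N : ℕ) [NeZero N] {k W : ℤ} (μ : ℕ) (e : ∀ j : ℕ, CuspForm 𝒮ℒ ((j + 1) * k))
    (a : ModularForm (Gamma0 N) (W + k)) (b : ModularForm (Gamma0 N) W) (hb : b ≠ 0)
    (φ : PowerSeries ℂ) (h1 : φ * qExpansion 1 b = qExpansion 1 a)
    (h2 : φ ^ (μ + 1) + ∑ j ∈ Finset.range (μ + 1), qExpansion 1 (e j) * φ ^ (μ - j) = 0) :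
    ∃ g : CuspForm (Gamma0 N) k, qExpansion 1 g = φ := by
  have hΓ : (1 : ℝ) ∈ ((Gamma0 N : Subgroup SL(2, ℤ)) : Subgroup (GL (Fin 2) ℝ)).strictPeriods :=
    one_mem_strictPeriods_Gamma0 N
  have hS : (1 : ℝ) ∈ (𝒮ℒ).strictPeriods := by simp
  have na : ConvNice (⇑a) := .of_modularForm hΓ a
  have nb : ConvNice (⇑b) := .of_modularForm hΓ b
  have ne : ∀ j, ConvNice (⇑(e j)) := fun j => .of_modularForm hS (e j)
  have hb0 : (⇑b : ℍ → ℂ) ≠ 0 := fun h => hb (DFunLike.coe_injective (by simpa using h))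
  -- Step 1 : the relation between `a` and `b`
  have hR : (⇑a : ℍ → ℂ) ^ (μ + 1) +
      ∑ j ∈ Finset.range (μ + 1), ⇑(e j) * (⇑a : ℍ → ℂ) ^ (μ - j) * (⇑b : ℍ → ℂ) ^ (j + 1) = 0 := by
    have nt : ∀ j ∈ Finset.range (μ + 1),
        ConvNice (⇑(e j) * (⇑a : ℍ → ℂ) ^ (μ - j) * (⇑b : ℍ → ℂ) ^ (j + 1)) :=
      fun j _ => ((ne j).mul (na.pow _)).mul (nb.pow _)
    apply ((na.pow (μ + 1)).add (ConvNice.sum _ nt)).eq_zero
    rw [(na.pow (μ + 1)).qExp_add (ConvNice.sum _ nt), na.qExp_pow, ConvNice.qExp_sum _ nt]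
    have : ∀ j ∈ Finset.range (μ + 1),
        qExpansion 1 (⇑(e j) * (⇑a : ℍ → ℂ) ^ (μ - j) * (⇑b : ℍ → ℂ) ^ (j + 1)) =
        qExpansion 1 (e j) * (φ * qExpansion 1 b) ^ (μ - j) * (qExpansion 1 b) ^ (j + 1) := by
      intro j _
      rw [((ne j).mul (na.pow _)).qExp_mul (nb.pow _), (ne j).qExp_mul (na.pow _), na.qExp_pow,
        nb.qExp_pow, h1]
    rw [Finset.sum_congr rfl this, ← h1, conv_alg, h2, zero_mul]
  -- Step 2 : the bound
  have hbd : ∀ τ : ℍ, ‖a τ‖ ≤ (1 + ∑ j ∈ Finset.range (μ + 1), ‖e j τ‖) * ‖b τ‖ := by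
    intro τ
    have hRτ : (a τ) ^ (μ + 1) +
        ∑ j ∈ Finset.range (μ + 1), e j τ * (a τ) ^ (μ - j) * (b τ) ^ (j + 1) = 0 := by
      have := congrFun hR τ
      simpa using this
    by_cases hbτ : b τ = 0
    · have : (a τ) ^ (μ + 1) = 0 := by simpa [hbτ] using hRτ
      rw [pow_eq_zero_iff (Nat.succ_ne_zero _)] at this
      simp [this, hbτ]
    · have hat : a τ = (a τ / b τ) * b τ := by field_simp
      rw [hat, conv_alg] at hRτ
      have hroot := (mul_eq_zero.mp hRτ).resolve_right (pow_ne_zero _ hbτ)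
      have hs : 0 ≤ ∑ j ∈ Finset.range (μ + 1), ‖e j τ‖ :=
        Finset.sum_nonneg fun _ _ => norm_nonneg _
      have hle : ‖a τ / b τ‖ ≤ 1 + ∑ j ∈ Finset.range (μ + 1), ‖e j τ‖ := by
        rcases conv_root_bound μ (fun j => e j τ) _ hroot with ⟨h, _⟩ | ⟨_, h⟩ <;> linarith
      rw [norm_div, div_le_iff₀ (norm_pos_iff.mpr hbτ)] at hle
      exact hle
  -- Step 3 : the quotient
  obtain ⟨G, hGd, hGm⟩ := conv_exists_quotient (U := {z : ℂ | 0 < z.im}) isOpen_upperHalfPlaneSet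
    conv_isPreconnected (A := ⇑a ∘ ofComplex) (B := ⇑b ∘ ofComplex)
    (UpperHalfPlane.mdifferentiable_iff.mp na.hol) (UpperHalfPlane.mdifferentiable_iff.mp nb.hol) (conv_exists_ne hb0)
    (M := fun z => 1 + ∑ j ∈ Finset.range (μ + 1), ‖(⇑(e j) ∘ ofComplex) z‖)
    (continuousOn_const.add (continuousOn_finsetSum _ fun j _ =>
      (UpperHalfPlane.mdifferentiable_iff.mp (ne j).hol).continuousOn.norm))
    (fun z _ => hbd (ofComplex z))
  set g : ℍ → ℂ := fun τ => G τ with hg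
  have hgb : g * ⇑b = ⇑a := by
    funext τ
    have := hGm τ τ.im_pos
    simpa using this
  have hgh : MDiff g := by
    rw [UpperHalfPlane.mdifferentiable_iff]
    refine hGd.congr fun z hz => ?_
    simp only [hg, comp_apply]
    rw [ofComplex_apply_of_im_pos hz]
  -- Step 4 : the polynomial relation for `g`
  have hrel : g ^ (μ + 1) + ∑ j ∈ Finset.range (μ + 1), ⇑(e j) * g ^ (μ - j) = 0 := by
    apply conv_eq_zero_of_mul_pow_eq_zero nb.hol hb0 _ (μ + 1)
    · rw [← conv_alg, hgb]; exact hR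
    · exact (hgh.continuous.pow _).add (Finset.sum_induction _ Continuous
        (fun _ _ => Continuous.add) continuous_zero fun j _ =>
        (ne j).hol.continuous.mul (hgh.continuous.pow _))
  -- Step 5 : invariance
  have hinv : ∀ γ ∈ Gamma0 N, g ∣[k] γ = g := by
    intro γ hγ
    have hγ' : (γ : GL (Fin 2) ℝ) ∈ ((Gamma0 N : Subgroup SL(2, ℤ)) : Subgroup (GL (Fin 2) ℝ)) :=
      Subgroup.mem_map_of_mem _ hγ
    have ha : (⇑a : ℍ → ℂ) ∣[W + k] γ = ⇑a := SlashInvariantFormClass.slash_action_eq a _ hγ'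
    have hbγ : (⇑b : ℍ → ℂ) ∣[W] γ = ⇑b := SlashInvariantFormClass.slash_action_eq b _ hγ'
    have hm : (g ∣[k] γ) * ⇑b = ⇑a := by
      have := mul_slash_SL2 W k γ (⇑b) g
      rw [mul_comm (⇑b) g, hgb, ha, hbγ, mul_comm] at this
      exact this.symm
    have hz : (g ∣[k] γ - g) * ⇑b = 0 := by rw [sub_mul, hm, hgb, sub_self]
    have hc : Continuous (g ∣[k] γ - g) :=
      ((hgh.slash k (γ : GL (Fin 2) ℝ)).continuous).sub hgh.continuous
    exact sub_eq_zero.mp (conv_eq_zero_of_mul_eq_zero nb.hol hb0 hc hz)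
  -- Step 6 : vanishing at the cusps
  have hcusp : ∀ γ : SL(2, ℤ), IsZeroAtImInfty (g ∣[k] γ) := by
    intro γ
    refine conv_tendsto_zero μ (fun j => ⇑(e j)) _ (fun j => ?_) (fun z => ?_)
    · exact CuspFormClass.zero_at_infty (e j)
    · set D : ℂ := denom γ z ^ (-k) with hD
      have hgz : (g ∣[k] γ) z = g (γ • z) * D := SL_slash_apply g γ z
      have hez : ∀ j : ℕ, e j z = e j (γ • z) * D ^ (j + 1) := by
        intro j
        have hγ' : (γ : GL (Fin 2) ℝ) ∈ 𝒮ℒ := ⟨γ, rfl⟩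
        have h := congrFun (SlashInvariantFormClass.slash_action_eq (e j) _ hγ') z
        rw [← h]
        have h' := SL_slash_apply (k := ((j : ℤ) + 1) * k) (⇑(e j)) γ z
        rw [SL_slash] at h'
        rw [h', hD, ← zpow_natCast, ← zpow_mul]
        congr 2
        push_cast
        ring
      have hr := congrFun hrel (γ • z)
      simp only [Pi.add_apply, Pi.pow_apply, Finset.sum_apply, Pi.mul_apply, Pi.zero_apply] at hr
      have := conv_alg μ (fun j => e j (γ • z)) (g (γ • z)) D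
      rw [hr, zero_mul] at this
      rw [hgz, ← this]
      congr 1
      refine Finset.sum_congr rfl fun j _ => ?_
      rw [hez j]; ring
  -- Step 7 : assembling
  let gc : CuspForm (Gamma0 N) k :=
    { toFun := g
      slash_action_eq' := by
        rintro _ ⟨γ, hγ, rfl⟩
        exact hinv γ hγ
      holo' := hgh
      zero_at_cusps' := by
        intro c hc
        rw [Subgroup.IsArithmetic.isCusp_iff_isCusp_SL2Z] at hc
        rw [OnePoint.isZeroAt_iff_forall_SL2Z hc]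
        exact fun γ _ => hcusp γ }
  refine ⟨gc, ?_⟩
  have ng : ConvNice (⇑gc) := .of_modularForm hΓ gc
  have hB : qExpansion 1 b ≠ 0 := fun h => hb0 (nb.eq_zero h)
  have hq : qExpansion 1 gc * qExpansion 1 b = φ * qExpansion 1 b := by
    rw [← ng.qExp_mul nb, h1]
    exact congrArg _ hgb
  exact mul_right_cancel₀ hB hq

end Fermat.Agent.S23
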