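/-
Module C (presentation).  Every cusp form `f` on `Γ₀(N)` is integral over the level one forms
(characteristic polynomial of its `SL(2,ℤ)`-translates) and `f * b = a` with `a, b` polynomial
expressions in level one forms and the primitive element `h` (Lagrange interpolation).
-/
import Fermat.Agent.S23.Defs

set_option autoImplicit false

open UpperHalfPlane ModularForm CongruenceSubgroup
open scoped MatrixGroups Manifold

namespace Fermat.Agent.S23

/-- functions generated by level one forms and a fixed function `h` of weight 4. -/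
inductive Gen (h : ℍ → ℂ) : ℤ → (ℍ → ℂ) → Prop
  | lvl1 {k : ℤ} (G : ModularForm 𝒮ℒ k) : Gen h k ⇑G
  | prim : Gen h 4 h
  | add {k : ℤ} {F F' : ℍ → ℂ} : Gen h k F → Gen h k F' → Gen h k (F + F')
  | mul {k k' : ℤ} {F F' : ℍ → ℂ} : Gen h k F → Gen h k' F' → Gen h (k + k') (F * F')

/-! ### Constructing level one forms -/

lemma exists_levelOne_of (K : ℤ) (G : ℍ → ℂ) (hinv : ∀ γ : SL(2, ℤ), G ∣[K] γ = G)
    (hol : MDiff G) (hbdd : IsBoundedAtImInfty G) : ∃ M : ModularForm 𝒮ℒ K, ⇑M = G :=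
  ⟨{ toFun := G
     slash_action_eq' := by
      rintro _ ⟨γ, rfl⟩
      exact hinv γ
     holo' := hol
     bdd_at_cusps' := fun {c} hc =>
      (OnePoint.isBoundedAt_iff_forall_SL2Z hc).mpr fun γ _ => by rw [hinv γ]; exact hbdd }, rfl⟩

lemma exists_levelOne_cusp_of (K : ℤ) (G : ℍ → ℂ) (hinv : ∀ γ : SL(2, ℤ), G ∣[K] γ = G)
    (hol : MDiff G) (hzero : IsZeroAtImInfty G) : ∃ M : CuspForm 𝒮ℒ K, ⇑M = G :=
  ⟨{ toFun := G
     slash_action_eq' := by
      rintro _ ⟨γ, rfl⟩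
      exact hinv γ
     holo' := hol
     zero_at_cusps' := fun {c} hc =>
      (OnePoint.isZeroAt_iff_forall_SL2Z hc).mpr fun γ _ => by rw [hinv γ]; exact hzero }, rfl⟩

/-! ### The family of translates -/

variable {N : ℕ}

/-- The family of `SL(2,ℤ)`-translates of a `Γ₀(N)`-invariant function, indexed by cosets. -/
noncomputable def tr (k : ℤ) (f : ℍ → ℂ) (hf : ∀ γ ∈ Gamma0 N, f ∣[k] γ = f)
    (q : SL(2, ℤ) ⧸ Gamma0 N) : ℍ → ℂ :=
  Quotient.liftOn' q (fun g => f ∣[k] g⁻¹) (by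
    intro a b hab
    rw [QuotientGroup.leftRel_apply] at hab
    have h1 : b⁻¹ = (a⁻¹ * b)⁻¹ * a⁻¹ := by group
    show f ∣[k] a⁻¹ = f ∣[k] b⁻¹
    rw [h1, SlashAction.slash_mul, hf _ (inv_mem hab)])

lemma tr_mk (k : ℤ) (f : ℍ → ℂ) (hf : ∀ γ ∈ Gamma0 N, f ∣[k] γ = f) (g : SL(2, ℤ)) :
    tr k f hf (QuotientGroup.mk g) = f ∣[k] g⁻¹ := rfl

lemma tr_one (k : ℤ) (f : ℍ → ℂ) (hf : ∀ γ ∈ Gamma0 N, f ∣[k] γ = f) :
    tr k f hf (QuotientGroup.mk 1) = f := by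
  rw [tr_mk, inv_one, SlashAction.slash_one]

lemma tr_slash (k : ℤ) (f : ℍ → ℂ) (hf : ∀ γ ∈ Gamma0 N, f ∣[k] γ = f) (γ : SL(2, ℤ))
    (q : SL(2, ℤ) ⧸ Gamma0 N) : tr k f hf q ∣[k] γ = tr k f hf (γ⁻¹ • q) := by
  induction q using QuotientGroup.induction_on with
  | H g =>
    rw [MulAction.Quotient.smul_mk, tr_mk, tr_mk, ← SlashAction.slash_mul]
    congr 1
    simp [mul_inv_rev]

/-- cosets -/
abbrev Q (N : ℕ) := SL(2, ℤ) ⧸ Gamma0 N

noncomputable instance instFintypeQ (N : ℕ) [NeZero N] : Fintype (Q N) := Fintype.ofFinite _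

open Finset

/-- elementary symmetric functions of a family of functions. -/
noncomputable def eF [NeZero N] (φ : Q N → ℍ → ℂ) (j : ℕ) : ℍ → ℂ :=
  ∑ s ∈ powersetCard j (univ : Finset (Q N)), ∏ q ∈ s, φ q

lemma eF_slash [NeZero N] {k : ℤ} (φ : Q N → ℍ → ℂ)
    (hφ : ∀ (γ : SL(2, ℤ)) (q : Q N), φ q ∣[k] γ = φ (γ⁻¹ • q)) (j : ℕ) (γ : SL(2, ℤ)) :
    eF φ j ∣[(j : ℤ) * k] γ = eF φ j := by
  have h1 : ∀ s ∈ powersetCard j (univ : Finset (Q N)),
      (∏ q ∈ s, φ q) ∣[(j : ℤ) * k] γ = ∏ q ∈ s, φ (γ⁻¹ • q) := by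
    intro s hs
    have hc : #s = j := (mem_powersetCard.mp hs).2
    rw [mul_comm, ← hc, SL_slash, prod_slash]
    simp only [← SL_slash, hφ]
    simp
  rw [eF, SlashAction.sum_slash, sum_congr rfl h1]
  refine Finset.sum_equiv ((MulAction.toPerm (γ⁻¹ : SL(2, ℤ))).finsetCongr) ?_ ?_
  · intro s
    simp [mem_powersetCard]
  · intro s _
    simp [Equiv.finsetCongr_apply, Finset.prod_map]

lemma eF_mdiff [NeZero N] (φ : Q N → ℍ → ℂ) (hφ : ∀ q, MDiff (φ q)) (j : ℕ) : MDiff (eF φ j) :=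
  MDifferentiable.sum fun _ _ => MDifferentiable.prod fun q _ => hφ q

lemma bdd_sum {ι : Type*} (s : Finset ι) (F : ι → ℍ → ℂ)
    (hF : ∀ i ∈ s, IsBoundedAtImInfty (F i)) : IsBoundedAtImInfty (∑ i ∈ s, F i) := by
  classical
  induction s using Finset.induction_on with
  | empty =>
    rw [Finset.sum_empty]
    exact Filter.const_boundedAtFilter atImInfty (0 : ℂ)
  | insert a s ha ih =>
    rw [Finset.sum_insert ha]
    exact Filter.BoundedAtFilter.add (hF a (Finset.mem_insert_self a s))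
      (ih fun i hi => hF i (Finset.mem_insert_of_mem hi))

lemma eF_bdd [NeZero N] (φ : Q N → ℍ → ℂ) (hφ : ∀ q, IsBoundedAtImInfty (φ q)) (j : ℕ) :
    IsBoundedAtImInfty (eF φ j) := by
  unfold eF
  exact bdd_sum _ _ fun s _ => Filter.BoundedAtFilter.prod s fun q _ => hφ q

lemma eF_zero [NeZero N] (φ : Q N → ℍ → ℂ) (hφ : ∀ q, IsZeroAtImInfty (φ q)) (j : ℕ) :
    IsZeroAtImInfty (eF φ (j + 1)) := by
  unfold eF IsZeroAtImInfty Filter.ZeroAtFilter
  have h1 : ∀ s ∈ powersetCard (j + 1) (univ : Finset (Q N)),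
      Filter.Tendsto (fun z => ∏ q ∈ s, φ q z) atImInfty (nhds 0) := by
    intro s hs
    have hc : #s = j + 1 := (mem_powersetCard.mp hs).2
    have := tendsto_finsetProd s (fun q _ => hφ q)
    simpa [hc] using this
  have := tendsto_finsetSum _ h1
  simpa [Finset.sum_fn, Finset.prod_fn] using this

lemma pow_slash_SL (k : ℤ) (F : ℍ → ℂ) (a : ℕ) (γ : SL(2, ℤ)) :
    (F ^ a) ∣[(a : ℤ) * k] γ = (F ∣[k] γ) ^ a := by
  ext z
  simp only [SL_slash_apply, Pi.pow_apply, mul_pow]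
  congr 1
  rw [← zpow_natCast, ← zpow_mul]
  congr 1
  ring

/-- power-sum type traces -/
noncomputable def tF [NeZero N] (φ ψ : Q N → ℍ → ℂ) (a : ℕ) : ℍ → ℂ :=
  ∑ q : Q N, ψ q * φ q ^ a

lemma tF_slash [NeZero N] {k k' : ℤ} (φ ψ : Q N → ℍ → ℂ)
    (hφ : ∀ (γ : SL(2, ℤ)) (q : Q N), φ q ∣[k] γ = φ (γ⁻¹ • q))
    (hψ : ∀ (γ : SL(2, ℤ)) (q : Q N), ψ q ∣[k'] γ = ψ (γ⁻¹ • q)) (a : ℕ) (γ : SL(2, ℤ)) :
    tF φ ψ a ∣[k' + (a : ℤ) * k] γ = tF φ ψ a := by
  rw [tF, SlashAction.sum_slash]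
  simp only [mul_slash_SL2, pow_slash_SL, hφ, hψ]
  exact Equiv.sum_comp (MulAction.toPerm (γ⁻¹ : SL(2, ℤ))) (fun q => ψ q * φ q ^ a)

lemma tF_mdiff [NeZero N] (φ ψ : Q N → ℍ → ℂ) (hφ : ∀ q, MDiff (φ q)) (hψ : ∀ q, MDiff (ψ q))
    (a : ℕ) : MDiff (tF φ ψ a) :=
  MDifferentiable.sum fun q _ => (hψ q).mul ((hφ q).pow a)

lemma tF_bdd [NeZero N] (φ ψ : Q N → ℍ → ℂ) (hφ : ∀ q, IsBoundedAtImInfty (φ q))
    (hψ : ∀ q, IsBoundedAtImInfty (ψ q)) (a : ℕ) : IsBoundedAtImInfty (tF φ ψ a) := by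
  unfold tF
  refine bdd_sum _ _ fun q _ => Filter.BoundedAtFilter.mul (hψ q) ?_
  have := Filter.BoundedAtFilter.prod (Finset.range a) (f := fun _ => φ q) (l := atImInfty)
    (fun _ _ => hφ q)
  simpa using this


section algebra

open Polynomial

lemma lagrange_aux {ι : Type*} [Fintype ι] [DecidableEq ι] (x : ι → ℂ) (q₀ q : ι) :
    ∑ j ∈ range (Fintype.card ι + 1), (∏ r, (X - C (x r))).coeff j *
        ∑ i ∈ range j, (x q₀) ^ i * (x q) ^ (j - 1 - i)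
      = ∏ r ∈ univ.erase q, (x q₀ - x r) := by
  set H : ℂ[X] := ∏ r, (X - C (x r)) with hH
  have hdeg : H.natDegree = Fintype.card ι := by
    rw [hH, natDegree_prod_of_monic _ _ (fun r _ => monic_X_sub_C (x r))]
    simp
  set D : ℂ[X] := ∑ j ∈ range (Fintype.card ι + 1), C (H.coeff j) *
        ∑ i ∈ range j, X ^ i * (C (x q)) ^ (j - 1 - i) with hD
  have hroot : H.eval (x q) = 0 := by
    rw [hH, eval_prod]
    exact Finset.prod_eq_zero (mem_univ q) (by simp)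
  have h1 : D * (X - C (x q)) = H := by
    rw [hD, Finset.sum_mul]
    have : ∀ j ∈ range (Fintype.card ι + 1),
        C (H.coeff j) * (∑ i ∈ range j, X ^ i * (C (x q)) ^ (j - 1 - i)) * (X - C (x q))
          = C (H.coeff j) * X ^ j - C (H.coeff j * (x q) ^ j) := by
      intro j _
      rw [mul_assoc, geom_sum₂_mul, mul_sub, C_mul, C_pow]
    rw [Finset.sum_congr rfl this, Finset.sum_sub_distrib, ← hdeg, ← as_sum_range_C_mul_X_pow,
      ← map_sum, ← eval_eq_sum_range, hroot, C_0, sub_zero]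
  have h2 : H = (∏ r ∈ univ.erase q, (X - C (x r))) * (X - C (x q)) := by
    rw [hH, Finset.prod_erase_mul _ _ (mem_univ q)]
  have h3 : D = ∏ r ∈ univ.erase q, (X - C (x r)) :=
    mul_right_cancel₀ (X_sub_C_ne_zero (x q)) (h1.trans h2)
  have h4 := congrArg (eval (x q₀)) h3
  rw [hD, eval_prod] at h4
  simpa [eval_finsetSum] using h4

lemma coeff_prod_X_sub_C {ι : Type*} [Fintype ι] (x : ι → ℂ) {j : ℕ} (hj : j ≤ Fintype.card ι) :
    (∏ r, (X - C (x r))).coeff j = (-1) ^ (Fintype.card ι - j) *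
      ∑ s ∈ powersetCard (Fintype.card ι - j) (univ : Finset ι), ∏ q ∈ s, x q := by
  have h := Multiset.prod_X_sub_C_coeff ((univ : Finset ι).val.map x) (k := j) (by simpa using hj)
  rw [Multiset.map_map, Finset.esymm_map_val] at h
  simpa using h

lemma lagrange_sum {ι : Type*} [Fintype ι] [DecidableEq ι] (x y : ι → ℂ) (q₀ : ι) :
    ∑ j ∈ range (Fintype.card ι + 1), ∑ i ∈ range j, (∏ r, (X - C (x r))).coeff j *
        (x q₀) ^ i * ∑ q, y q * (x q) ^ (j - 1 - i)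
      = y q₀ * ∏ r ∈ univ.erase q₀, (x q₀ - x r) := by
  have h1 : ∀ q, y q * ∏ r ∈ univ.erase q, (x q₀ - x r)
      = if q = q₀ then y q₀ * ∏ r ∈ univ.erase q₀, (x q₀ - x r) else 0 := by
    intro q
    split_ifs with h
    · rw [h]
    · rw [Finset.prod_eq_zero (i := q₀) (by simp [Ne.symm h]) (by simp), mul_zero]
  have h2 : ∑ q, y q * ∏ r ∈ univ.erase q, (x q₀ - x r)
      = y q₀ * ∏ r ∈ univ.erase q₀, (x q₀ - x r) := by
    rw [Finset.sum_congr rfl (fun q _ => h1 q)]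
    simp
  rw [← h2]
  simp_rw [← lagrange_aux x q₀, Finset.mul_sum]
  rw [Finset.sum_comm]
  refine Finset.sum_congr rfl fun j _ => ?_
  rw [Finset.sum_comm]
  refine Finset.sum_congr rfl fun i _ => ?_
  refine Finset.sum_congr rfl fun q _ => ?_
  ring


lemma charpoly_rel {ι : Type*} [Fintype ι] (y : ι → ℂ) (q₀ : ι) (μ : ℕ)
    (hμ : Fintype.card ι = μ + 1) :
    (y q₀) ^ (μ + 1) + ∑ j ∈ range (μ + 1),
      ((-1) ^ (j + 1) * ∑ s ∈ powersetCard (j + 1) (univ : Finset ι), ∏ q ∈ s, y q)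
        * (y q₀) ^ (μ - j) = 0 := by
  have h := Multiset.prod_X_sub_X_eq_sum_esymm ((univ : Finset ι).val.map y)
  have h2 := congrArg (eval (y q₀)) h
  rw [Multiset.map_map] at h2
  have h3 : eval (y q₀) (Multiset.map ((fun t => X - C t) ∘ y) (univ : Finset ι).val).prod = 0 := by
    have : (Multiset.map ((fun t => X - C t) ∘ y) (univ : Finset ι).val).prod
        = ∏ q, (X - C (y q)) := rfl
    rw [this, eval_prod]
    exact Finset.prod_eq_zero (mem_univ q₀) (by simp)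
  rw [h3] at h2
  simp only [Multiset.card_map, card_val, card_univ, hμ, Finset.esymm_map_val] at h2
  rw [Finset.sum_range_succ', eval_add, eval_finsetSum] at h2
  simp only [eval_mul, eval_pow, eval_neg, eval_one, eval_C, eval_X] at h2
  simp only [powersetCard_zero, sum_singleton, prod_empty, pow_zero, one_mul, Nat.sub_zero] at h2
  rw [add_comm, h2]
  congr 1
  refine Finset.sum_congr rfl fun j _ => ?_
  rw [Nat.add_sub_add_right, mul_assoc]

end algebra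

/-! ### Closure properties of `Gen` -/

lemma Gen.cast {h : ℍ → ℂ} {k k' : ℤ} {F : ℍ → ℂ} (hk : k = k') (hF : Gen h k F) : Gen h k' F :=
  hk ▸ hF

lemma Gen.zero (h : ℍ → ℂ) (k : ℤ) : Gen h k 0 := by
  have := Gen.lvl1 (h := h) (0 : ModularForm 𝒮ℒ k)
  simpa using this

lemma Gen.one (h : ℍ → ℂ) : Gen h 0 1 := by
  have := Gen.lvl1 (h := h) (1 : ModularForm 𝒮ℒ 0)
  simpa using this

lemma Gen.pow_prim (h : ℍ → ℂ) (a : ℕ) : Gen h ((a : ℤ) * 4) (h ^ a) := by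
  induction a with
  | zero => simpa using Gen.one h
  | succ a ih =>
    rw [pow_succ]
    exact (ih.mul .prim).cast (by push_cast; ring)

lemma Gen.sum {h : ℍ → ℂ} {k : ℤ} {ι : Type*} (s : Finset ι) (F : ι → ℍ → ℂ)
    (hF : ∀ i ∈ s, Gen h k (F i)) : Gen h k (∑ i ∈ s, F i) := by
  classical
  induction s using Finset.induction_on with
  | empty => simpa using Gen.zero h k
  | insert a s ha ih =>
    rw [Finset.sum_insert ha]
    exact (hF a (Finset.mem_insert_self a s)).add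
      (ih fun i hi => hF i (Finset.mem_insert_of_mem hi))

/-! ### The presentation theorem -/

lemma slash_eq_of_mem_Gamma0 {k : ℤ} {F : Type*} [FunLike F ℍ ℂ]
    [SlashInvariantFormClass F (Subgroup.map (Matrix.SpecialLinearGroup.mapGL ℝ) (Gamma0 N)) k]
    (f : F) (γ : SL(2, ℤ)) (hγ : γ ∈ Gamma0 N) : (⇑f : ℍ → ℂ) ∣[k] γ = ⇑f :=
  SlashInvariantFormClass.slash_action_eq f _ (Subgroup.mem_map_of_mem _ hγ)

lemma tr_mdiff (k : ℤ) (f : ℍ → ℂ) (hf : ∀ γ ∈ Gamma0 N, f ∣[k] γ = f) (hol : MDiff f)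
    (q : Q N) : MDiff (tr k f hf q) := by
  induction q using QuotientGroup.induction_on with
  | H g =>
    rw [tr_mk, SL_slash]
    exact hol.slash k _

theorem pres (N : ℕ) [NeZero N] (h : ModularForm (Gamma0 N) 4)
    (hh : ∀ γ : SL(2, ℤ), γ ∉ Gamma0 N → (⇑h : ℍ → ℂ) ∣[(4 : ℤ)] γ ≠ ⇑h)
    {k : ℤ} (f : CuspForm (Gamma0 N) k) :
    ∃ (μ : ℕ) (e : ∀ j : ℕ, CuspForm 𝒮ℒ ((j + 1) * k)) (W : ℤ) (a b : ℍ → ℂ),
      Gen h (W + k) a ∧ Gen h W b ∧ b ≠ 0 ∧ ⇑f * b = a ∧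
      (⇑f) ^ (μ + 1) + ∑ j ∈ Finset.range (μ + 1), ⇑(e j) * (⇑f) ^ (μ - j) = 0 := by
  classical
  set φ : Q N → ℍ → ℂ := tr 4 h (slash_eq_of_mem_Gamma0 h) with hφdef
  set ψ : Q N → ℍ → ℂ := tr k f (slash_eq_of_mem_Gamma0 f) with hψdef
  set q₀ : Q N := QuotientGroup.mk 1 with hq₀
  have hφ0 : φ q₀ = h := tr_one _ _ _
  have hψ0 : ψ q₀ = f := tr_one _ _ _
  have hφs : ∀ (γ : SL(2, ℤ)) (q : Q N), φ q ∣[(4 : ℤ)] γ = φ (γ⁻¹ • q) := tr_slash _ _ _
  have hψs : ∀ (γ : SL(2, ℤ)) (q : Q N), ψ q ∣[k] γ = ψ (γ⁻¹ • q) := tr_slash _ _ _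
  have hφm : ∀ q, MDiff (φ q) := tr_mdiff _ _ _ h.holo'
  have hψm : ∀ q, MDiff (ψ q) := tr_mdiff _ _ _ f.holo'
  have hφb : ∀ q, IsBoundedAtImInfty (φ q) := by
    intro q
    induction q using QuotientGroup.induction_on with
    | H g => exact ModularFormClass.bdd_at_infty_slash h g⁻¹
  have hψz : ∀ q, IsZeroAtImInfty (ψ q) := by
    intro q
    induction q using QuotientGroup.induction_on with
    | H g => exact CuspFormClass.zero_at_infty_slash f g⁻¹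
  have hψb : ∀ q, IsBoundedAtImInfty (ψ q) := fun q => (hψz q).boundedAtFilter
  obtain ⟨μ, hμ⟩ : ∃ μ, Fintype.card (Q N) = μ + 1 :=
    Nat.exists_eq_succ_of_ne_zero (Fintype.card_ne_zero (α := Q N))
  -- the level one forms
  have hE : ∀ j : ℕ, ∃ M : CuspForm 𝒮ℒ ((j + 1) * k), ⇑M = eF ψ (j + 1) := fun j =>
    exists_levelOne_cusp_of _ _
      (fun γ => by have := eF_slash ψ hψs (j + 1) γ; push_cast at this; exact this)
      (eF_mdiff ψ hψm _) (eF_zero ψ hψz j)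
  choose E hE using hE
  have hC : ∀ j : ℕ, ∃ M : ModularForm 𝒮ℒ ((j : ℤ) * 4), ⇑M = eF φ j := fun j =>
    exists_levelOne_of _ _ (eF_slash φ hφs j) (eF_mdiff φ hφm _) (eF_bdd φ hφb j)
  choose Cf hCf using hC
  have hT : ∀ m : ℕ, ∃ M : ModularForm 𝒮ℒ (k + (m : ℤ) * 4), ⇑M = tF φ ψ m := fun m =>
    exists_levelOne_of _ _ (tF_slash φ ψ hφs hψs m) (tF_mdiff φ ψ hφm hψm m)
      (tF_bdd φ ψ hφb hψb m)
  choose T hT using hT
  set c : ℕ → ℍ → ℂ := fun j => ((-1 : ℂ) ^ (μ + 1 - j)) • eF φ (μ + 1 - j) with hc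
  have hcGen : ∀ j, Gen h (((μ + 1 - j : ℕ) : ℤ) * 4) (c j) := fun j => by
    have := Gen.lvl1 (h := h) (((-1 : ℂ) ^ (μ + 1 - j)) • Cf (μ + 1 - j))
    have h2 : ⇑(((-1 : ℂ) ^ (μ + 1 - j)) • Cf (μ + 1 - j)) = c j := by
      show _ = ((-1 : ℂ) ^ (μ + 1 - j)) • eF φ (μ + 1 - j)
      rw [← hCf]; rfl
    rwa [h2] at this
  have hcz : ∀ z, ∀ j ∈ Finset.range (μ + 1 + 1),
      c j z = (∏ r, (Polynomial.X - Polynomial.C (φ r z))).coeff j := by
    intro z j hj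
    rw [coeff_prod_X_sub_C _ (by rw [hμ]; exact Nat.lt_succ_iff.mp (Finset.mem_range.mp hj)), hμ]
    simp [hc, eF, Finset.sum_apply, Finset.prod_apply]
  set b : ℍ → ℂ := ∑ j ∈ Finset.range (μ + 1 + 1), ∑ i ∈ Finset.range j,
    c j * (⇑h) ^ i * (⇑h) ^ (j - 1 - i) with hb
  set a : ℍ → ℂ := ∑ j ∈ Finset.range (μ + 1 + 1), ∑ i ∈ Finset.range j,
    c j * (⇑h) ^ i * tF φ ψ (j - 1 - i) with ha
  have hbz : ∀ z, b z = ∏ r ∈ Finset.univ.erase q₀, (h z - φ r z) := by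
    intro z
    have := lagrange_aux (fun r => φ r z) q₀ q₀
    simp only [hφ0, hμ] at this
    rw [← this, hb]
    simp only [Finset.sum_apply, Pi.mul_apply, Pi.pow_apply]
    refine Finset.sum_congr rfl fun j hj => ?_
    rw [Finset.mul_sum]
    refine Finset.sum_congr rfl fun i _ => ?_
    rw [hcz z j hj, mul_assoc]
  have haz : ∀ z, a z = f z * b z := by
    intro z
    have := lagrange_sum (fun r => φ r z) (fun r => ψ r z) q₀
    simp only [hφ0, hψ0, hμ] at this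
    rw [hbz, ← this, ha]
    simp only [Finset.sum_apply, Pi.mul_apply, Pi.pow_apply, tF]
    refine Finset.sum_congr rfl fun j hj => ?_
    refine Finset.sum_congr rfl fun i _ => ?_
    rw [hcz z j hj]
  refine ⟨μ, fun j => ((-1 : ℂ) ^ (j + 1)) • E j, (μ : ℤ) * 4, a, b, ?_, ?_, ?_, ?_, ?_⟩
  · -- `Gen a`
    refine Gen.sum _ _ fun j hj => Gen.sum _ _ fun i hi => ?_
    have h1 := ((hcGen j).mul (Gen.pow_prim h i)).mul (Gen.lvl1 (h := h) (T (j - 1 - i)))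
    rw [hT] at h1
    refine h1.cast ?_
    have hj' := Finset.mem_range.mp hj
    have hi' := Finset.mem_range.mp hi
    have : ((μ + 1 - j : ℕ) : ℤ) + i + ((j - 1 - i : ℕ) : ℤ) = μ := by omega
    linear_combination 4 * this
  · -- `Gen b`
    refine Gen.sum _ _ fun j hj => Gen.sum _ _ fun i hi => ?_
    have h1 := ((hcGen j).mul (Gen.pow_prim h i)).mul (Gen.pow_prim h (j - 1 - i))
    refine h1.cast ?_
    have hj' := Finset.mem_range.mp hj
    have hi' := Finset.mem_range.mp hi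
    have : ((μ + 1 - j : ℕ) : ℤ) + i + ((j - 1 - i : ℕ) : ℤ) = μ := by omega
    linear_combination 4 * this
  · -- `b ≠ 0`
    intro hb0
    have hbf : b = ∏ r ∈ Finset.univ.erase q₀, (⇑h - φ r) := by
      ext z
      rw [hbz, Finset.prod_apply]
      rfl
    have hhm : MDiff (⇑h : ℍ → ℂ) := h.holo'
    rw [hbf, UpperHalfPlane.prod_eq_zero_iff (fun r _ => hhm.sub (hφm r))] at hb0
    obtain ⟨r, hr, hr0⟩ := hb0
    induction r using QuotientGroup.induction_on with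
    | H g =>
      have h1 : (⇑h : ℍ → ℂ) ∣[(4 : ℤ)] g⁻¹ = ⇑h := (sub_eq_zero.mp hr0).symm
      have h2 : g⁻¹ ∈ Gamma0 N := by
        by_contra hg
        exact hh _ hg h1
      apply (Finset.mem_erase.mp hr).1
      rw [hq₀, QuotientGroup.eq]
      simpa using h2
  · ext z
    rw [Pi.mul_apply, haz]
  · ext z
    have := charpoly_rel (fun r => ψ r z) q₀ μ hμ
    simp only [hψ0] at this
    simp only [Pi.add_apply, Pi.pow_apply, Finset.sum_apply, Pi.mul_apply, Pi.zero_apply]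
    rw [← this]
    congr 1
    refine Finset.sum_congr rfl fun j _ => ?_
    congr 1
    have h2 : (((-1 : ℂ) ^ (j + 1)) • E j) z = (-1 : ℂ) ^ (j + 1) * (E j) z := rfl
    rw [h2, hE]
    simp [eF, Finset.sum_apply, Finset.prod_apply]

end Fermat.Agent.S23
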