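/-
Module B (primitive element).  `h(z) = E₄(N z)` is a modular form of weight 4 on `Γ₀(N)` with
integer `q`-expansion, and `h ∣[4] γ ≠ h` for `γ ∈ SL(2,ℤ) \ Γ₀(N)`.

Maths: for `γ = [[a,b],[c,d]]`, `g = gcd(c,N)`, `D = N/g`, pick `γ' ∈ SL(2,ℤ)` with first column
`(N a / g, c / g)`; then `[[N a, N b],[c, d]] = γ' * [[g, B],[0, D]]`, hence
`(h ∣[4] γ)(z) = D^(-4) * E₄((g z + B)/D) → D^(-4)` as `Im z → ∞`, whereas `h → 1`.
`D = 1 ↔ N ∣ c`.
-/
import Fermat.Agent.S23.Defs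
import Fermat.Prelude.Def_ModularForm_HeckeOperator

set_option autoImplicit false

open UpperHalfPlane ModularForm CongruenceSubgroup Filter Topology Matrix.SpecialLinearGroup
open scoped MatrixGroups Manifold ArithmeticFunction.sigma

namespace Fermat.Agent.S23

theorem prim_decomp (N : ℕ) [NeZero N] (γ : SL(2, ℤ)) :
    ∃ (γ' : SL(2, ℤ)) (g B D : ℤ), 0 < g ∧ 0 < D ∧ g * D = N ∧ (D = 1 → (N : ℤ) ∣ γ 1 0) ∧
      (N : ℤ) * γ 0 0 = γ' 0 0 * g ∧ (N : ℤ) * γ 0 1 = γ' 0 0 * B + γ' 0 1 * D ∧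
      γ 1 0 = γ' 1 0 * g ∧ γ 1 1 = γ' 1 0 * B + γ' 1 1 * D := by
  set a := γ 0 0 with ha
  set b := γ 0 1 with hb
  set c := γ 1 0 with hc
  set d := γ 1 1 with hd
  have hdet : a * d - b * c = 1 := by
    have := γ.det_coe
    rw [Matrix.det_fin_two] at this
    exact this
  have hN : (0 : ℤ) < N := by exact_mod_cast Nat.pos_of_ne_zero (NeZero.ne N)
  have hgpos : 0 < Int.gcd c N := Int.gcd_pos_of_ne_zero_right _ hN.ne'
  obtain ⟨c', N', hcop, hc', hN'⟩ := Int.exists_gcd_one hgpos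
  set g : ℤ := (Int.gcd c N : ℤ) with hg
  have hg0 : 0 < g := by rw [hg]; exact_mod_cast hgpos
  have hN'pos : 0 < N' := by
    by_contra h
    push Not at h
    have : (N : ℤ) ≤ 0 := by rw [hN']; exact mul_nonpos_of_nonpos_of_nonneg h hg0.le
    omega
  have h1 : IsCoprime N' c' := (Int.isCoprime_iff_gcd_eq_one.mpr hcop).symm
  have h2 : IsCoprime a c' := by
    have : IsCoprime a c := ⟨d, -b, by linear_combination hdet⟩
    rw [hc'] at this
    exact this.of_mul_right_left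
  obtain ⟨s, t, hst⟩ := h1.mul_left h2
  refine ⟨⟨!![N' * a, -t; c', s], ?_⟩, g, s * N * b + t * d, N', hg0, hN'pos, ?_, ?_, ?_, ?_, ?_, ?_⟩
  · rw [Matrix.det_fin_two_of]; linear_combination hst
  · rw [hN']; ring
  · intro h
    rw [h, one_mul] at hN'
    exact ⟨c', by rw [hN', mul_comm]; exact hc'⟩
  · simp only [Matrix.of_apply, Matrix.cons_val', Matrix.cons_val_zero,
      Matrix.cons_val_fin_one]
    rw [hN']; ring
  · simp only [Matrix.of_apply, Matrix.cons_val', Matrix.cons_val_zero,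
      Matrix.cons_val_fin_one, Matrix.cons_val_one]
    linear_combination (t * b * c') * hN' - (t * b * N') * hc' - ((N : ℤ) * b) * hst - (t * N') * hdet
  · simp only [Matrix.of_apply, Matrix.cons_val', Matrix.cons_val_zero,
      Matrix.cons_val_fin_one, Matrix.cons_val_one]
    exact hc'
  · simp only [Matrix.of_apply, Matrix.cons_val', Matrix.cons_val_zero,
      Matrix.cons_val_fin_one, Matrix.cons_val_one]
    linear_combination (s * N') * hdet + (s * b * N') * hc' - (s * b * c') * hN' - d * hst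

theorem prim_mat_eq (n a2 b2 d2 : ℤ) (h1 : (n : ℝ) * 1 ≠ 0) (h2 : (a2 : ℝ) * d2 ≠ 0) (γ γ' : SL(2, ℤ))
    (e00 : n * γ 0 0 = γ' 0 0 * a2) (e01 : n * γ 0 1 = γ' 0 0 * b2 + γ' 0 1 * d2)
    (e10 : γ 1 0 = γ' 1 0 * a2) (e11 : γ 1 1 = γ' 1 0 * b2 + γ' 1 1 * d2) :
    upperTriangularGL n 0 1 h1 * mapGL ℝ γ = mapGL ℝ γ' * upperTriangularGL a2 b2 d2 h2 := by
  apply Matrix.GeneralLinearGroup.ext
  intro i j
  have c00 : (n : ℝ) * γ 0 0 = γ' 0 0 * a2 := by exact_mod_cast e00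
  have c01 : (n : ℝ) * γ 0 1 = γ' 0 0 * b2 + γ' 0 1 * d2 := by exact_mod_cast e01
  have c10 : (γ 1 0 : ℝ) = γ' 1 0 * a2 := by exact_mod_cast e10
  have c11 : (γ 1 1 : ℝ) = γ' 1 0 * b2 + γ' 1 1 * d2 := by exact_mod_cast e11
  fin_cases i <;> fin_cases j <;>
    simp [Matrix.mul_apply, Fin.sum_univ_two, c00, c01, c10, c11]

theorem prim_slash_apply (f : ℍ → ℂ) (k : ℤ) (a b d : ℝ) (ha : 0 < a) (hd : 0 < d) (τ : ℍ) :
    (f ∣[k] upperTriangularGL a b d (mul_pos ha hd).ne') τ =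
      f (upperTriangularGL a b d (mul_pos ha hd).ne' • τ) * ((a * d : ℝ) : ℂ) ^ (k - 1) *
        (d : ℂ) ^ (-k) := by
  set g := upperTriangularGL a b d (mul_pos ha hd).ne' with hg
  have hdet : (g.det : ℝ) = a * d := by
    rw [Matrix.GeneralLinearGroup.val_det_apply, hg, val_upperTriangularGL, Matrix.det_fin_two_of]
    ring
  have hσ : UpperHalfPlane.σ g = .refl ℝ ℂ := by
    rw [UpperHalfPlane.σ, if_pos (by rw [hdet]; exact mul_pos ha hd)]
  have hden : denom g τ = d := by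
    simp [denom, hg]
  rw [slash_apply, hσ, hdet, hden, abs_of_pos (mul_pos ha hd)]
  rfl

theorem prim_tendsto_slash {f : ℍ → ℂ} {L : ℂ} (hf : Tendsto f atImInfty (𝓝 L)) (k : ℤ)
    (a b d : ℝ) (ha : 0 < a) (hd : 0 < d) :
    Tendsto (f ∣[k] upperTriangularGL a b d (mul_pos ha hd).ne') atImInfty
      (𝓝 (L * ((a * d : ℝ) : ℂ) ^ (k - 1) * (d : ℂ) ^ (-k))) := by
  set g := upperTriangularGL a b d (mul_pos ha hd).ne' with hg
  have hdet : (g.det : ℝ) = a * d := by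
    rw [Matrix.GeneralLinearGroup.val_det_apply, hg, val_upperTriangularGL, Matrix.det_fin_two_of]
    ring
  have hg10 : g 1 0 = 0 := by simp [hg]
  have hσ : UpperHalfPlane.σ g = .refl ℝ ℂ := by
    rw [UpperHalfPlane.σ, if_pos (by rw [hdet]; exact mul_pos ha hd)]
  have hden : ∀ τ : ℍ, denom g τ = d := by
    intro τ
    simp [denom, hg]
  have : f ∣[k] g = fun τ => f (g • τ) * ((a * d : ℝ) : ℂ) ^ (k - 1) * (d : ℂ) ^ (-k) := by
    funext τ
    rw [slash_apply, hσ, hdet, hden, abs_of_pos (mul_pos ha hd)]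
    rfl
  rw [this]
  exact ((hf.comp (tendsto_smul_atImInfty hg10)).mul_const _).mul_const _

theorem primN_ne (N : ℕ) [NeZero N] : (((N : ℤ) : ℝ)) * 1 ≠ 0 := by
  simpa using NeZero.ne N

theorem primN_pos (N : ℕ) [NeZero N] : (0 : ℝ) < ((N : ℤ) : ℝ) := by
  exact_mod_cast Nat.pos_of_ne_zero (NeZero.ne N)

/-- the matrix `diag(N,1)` -/
noncomputable def primα (N : ℕ) [NeZero N] : GL (Fin 2) ℝ :=
  upperTriangularGL ((N : ℤ) : ℝ) 0 1 (primN_ne N)

open ConjAct Pointwise in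
theorem prim_le (N : ℕ) [NeZero N] :
    ((Gamma0 N : Subgroup SL(2, ℤ)) : Subgroup (GL (Fin 2) ℝ)) ≤ toConjAct (primα N)⁻¹ • 𝒮ℒ := by
  rintro _ ⟨γ, hγ, rfl⟩
  rw [map_inv, Subgroup.mem_inv_pointwise_smul_iff, toConjAct_smul]
  have hc : (N : ℤ) ∣ γ 1 0 := by
    have := Gamma0_mem.mp hγ
    exact (ZMod.intCast_zmod_eq_zero_iff_dvd _ _).mp this
  obtain ⟨c', hc'⟩ := hc
  have hdet : γ 0 0 * γ 1 1 - γ 0 1 * γ 1 0 = 1 := by
    have := γ.det_coe
    rw [Matrix.det_fin_two] at this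
    exact this
  let γ' : SL(2, ℤ) := ⟨!![γ 0 0, N * γ 0 1; c', γ 1 1], by
    rw [Matrix.det_fin_two_of]; rw [hc'] at hdet; linear_combination hdet⟩
  have key : primα N * mapGL ℝ γ = mapGL ℝ γ' * primα N := by
    have := prim_mat_eq (N : ℤ) (N : ℤ) 0 1 (primN_ne N) (by simpa using primN_ne N) γ γ'
      (by simp [γ', mul_comm]) (by simp [γ']) (by simp [γ', hc', mul_comm]) (by simp [γ'])
    simpa [primα] using this
  refine ⟨γ', ?_⟩
  rw [key]
  simp

/-- `N³ E₄(N z)` as a modular form on `Γ₀(N)`. -/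
noncomputable def primForm0 (N : ℕ) [NeZero N] : ModularForm (Gamma0 N) 4 where
  toFun := ⇑E₄ ∣[(4 : ℤ)] primα N
  slash_action_eq' γ hγ := (ModularForm.translate E₄ (primα N)).slash_action_eq' γ (prim_le N hγ)
  holo' := (ModularForm.translate E₄ (primα N)).holo'
  bdd_at_cusps' hc := (ModularForm.translate E₄ (primα N)).bdd_at_cusps' (hc.mono (prim_le N))

/-- `E₄(N z)` as a modular form on `Γ₀(N)`. -/
noncomputable def primForm (N : ℕ) [NeZero N] : ModularForm (Gamma0 N) 4 :=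
  (((N : ℂ) ^ 3)⁻¹) • primForm0 N

theorem primForm_coe (N : ℕ) [NeZero N] :
    (⇑(primForm N) : ℍ → ℂ) = (((N : ℂ) ^ 3)⁻¹) • (⇑E₄ ∣[(4 : ℤ)] primα N) := rfl

theorem primForm_apply (N : ℕ) [NeZero N] (τ : ℍ) :
    primForm N τ = E₄ (primα N • τ) := by
  have hN : (N : ℂ) ≠ 0 := by exact_mod_cast NeZero.ne N
  rw [primForm_coe, Pi.smul_apply, primα]
  rw [prim_slash_apply _ _ _ _ _ (primN_pos N) one_pos]
  have : ((((N : ℤ) : ℝ) * 1 : ℝ) : ℂ) ^ ((4 : ℤ) - 1) = (N : ℂ) ^ 3 := by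
    norm_num
  rw [this]
  simp only [Complex.ofReal_one, one_zpow, smul_eq_mul, mul_one]
  field_simp

theorem primα_smul_coe (N : ℕ) [NeZero N] (τ : ℍ) : ((primα N • τ : ℍ) : ℂ) = N * τ := by
  have hdet : 0 < ((primα N).det : ℝ) := by
    rw [Matrix.GeneralLinearGroup.val_det_apply, primα, val_upperTriangularGL, Matrix.det_fin_two_of]
    simpa using primN_pos N
  rw [UpperHalfPlane.coe_smul_of_det_pos hdet]
  simp [UpperHalfPlane.num, UpperHalfPlane.denom, primα]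

/-- integer coefficients of `E₄` -/
def primA (m : ℕ) : ℤ := if m = 0 then 1 else 240 * (σ 3 m : ℤ)

theorem primA_eq (m : ℕ) : (qExpansion 1 E₄).coeff m = (primA m : ℂ) := by
  rw [EisensteinSeries.E_qExpansion_coeff _ ⟨2, rfl⟩, primA]
  split_ifs
  · simp
  · norm_num [show bernoulli 4 = -1 / 30 by decide +kernel]

theorem primForm_hasSum (N : ℕ) [NeZero N] (τ : ℍ) :
    HasSum (fun n : ℕ => ((if N ∣ n then primA (n / N) else 0 : ℤ) : ℂ) •
      Function.Periodic.qParam 1 τ ^ n) (primForm N τ) := by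
  have hN : 0 < N := Nat.pos_of_ne_zero (NeZero.ne N)
  have h0 := ModularForm.hasSum_qExpansion (h := 1) E₄ one_pos (by simp) (primα N • τ)
  have hq : Function.Periodic.qParam 1 ((primα N • τ : ℍ) : ℂ) = Function.Periodic.qParam 1 τ ^ N := by
    rw [primα_smul_coe, Function.Periodic.qParam, Function.Periodic.qParam, ← Complex.exp_nat_mul]
    congr 1
    simp only [Complex.ofReal_one, div_one]
    ring
  rw [primForm_apply]
  have hinj : Function.Injective (fun m : ℕ => N * m) := fun a b h => Nat.eq_of_mul_eq_mul_left hN h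
  rw [← hinj.hasSum_iff]
  · convert h0 using 2 with m
    simp only [Function.comp_apply, dvd_mul_right, if_true, Nat.mul_div_cancel_left _ hN, primA_eq, hq,
      smul_eq_mul, pow_mul]
  · intro n hn
    have : ¬ N ∣ n := fun ⟨m, hm⟩ => hn ⟨m, hm.symm⟩
    simp [this]

theorem primForm_qExpansion (N : ℕ) [NeZero N] :
    qExpansion 1 (primForm N) =
      (PowerSeries.mk fun n : ℕ => (if N ∣ n then primA (n / N) else 0 : ℤ)).map
        (Int.castRingHom ℂ) := by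
  ext n
  rw [PowerSeries.coeff_map, PowerSeries.coeff_mk]
  exact (ModularFormClass.qExpansion_coeff_unique one_pos (one_mem_strictPeriods_Gamma0 N)
    (primForm_hasSum N) n).symm

theorem prim_E4_tendsto : Tendsto (⇑E₄) atImInfty (𝓝 1) := by
  have hS : (1 : ℝ) ∈ (𝒮ℒ).strictPeriods := by simp
  have han := ModularFormClass.analyticAt_cuspFunction_zero E₄ one_pos hS
  have hcomp : (cuspFunction 1 (⇑E₄) ∘ fun τ : ℍ => Function.Periodic.qParam 1 τ) = ⇑E₄ := by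
    funext τ
    exact SlashInvariantFormClass.eq_cuspFunction E₄ τ hS one_ne_zero
  have h0 : cuspFunction 1 (⇑E₄) 0 = 1 := by
    have := EisensteinSeries.E_qExpansion_coeff_zero (k := 4) (by norm_num) ⟨2, rfl⟩
    simpa [qExpansion_coeff] using this
  have := han.continuousAt.tendsto.comp (qParam_tendsto_atImInfty one_pos)
  rwa [hcomp, h0] at this

theorem primForm_slash_ne (N : ℕ) [NeZero N] (γ : SL(2, ℤ)) (hγ : γ ∉ Gamma0 N) :
    (⇑(primForm N) : ℍ → ℂ) ∣[(4 : ℤ)] γ ≠ ⇑(primForm N) := by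
  intro heq
  obtain ⟨γ', g, B, D, hg, hD, hgD, hD1, e00, e01, e10, e11⟩ := prim_decomp N γ
  have hgR : (0 : ℝ) < g := by exact_mod_cast hg
  have hDR : (0 : ℝ) < D := by exact_mod_cast hD
  have hmat := prim_mat_eq (N : ℤ) g B D (primN_ne N) (mul_pos hgR hDR).ne' γ γ' e00 e01 e10 e11
  have hN : (N : ℂ) ≠ 0 := by exact_mod_cast NeZero.ne N
  have hE : (⇑E₄ : ℍ → ℂ) ∣[(4 : ℤ)] (mapGL ℝ γ') = ⇑E₄ :=
    SlashInvariantFormClass.slash_action_eq E₄ _ ⟨γ', rfl⟩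
  have h1 : ((⇑E₄ : ℍ → ℂ) ∣[(4 : ℤ)] primα N) ∣[(4 : ℤ)] γ =
      (⇑E₄ : ℍ → ℂ) ∣[(4 : ℤ)] upperTriangularGL g B D (mul_pos hgR hDR).ne' := by
    rw [SL_slash, ← SlashAction.slash_mul, primα]
    erw [hmat]
    rw [SlashAction.slash_mul, hE]
  rw [primForm_coe, SL_smul_slash, h1] at heq
  have heq' : (⇑E₄ : ℍ → ℂ) ∣[(4 : ℤ)] upperTriangularGL g B D (mul_pos hgR hDR).ne' =
      (⇑E₄ : ℍ → ℂ) ∣[(4 : ℤ)] primα N :=
    smul_right_injective _ (inv_ne_zero (pow_ne_zero 3 hN)) heq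
  have t1 := prim_tendsto_slash prim_E4_tendsto 4 g B D hgR hDR
  have t2 := prim_tendsto_slash prim_E4_tendsto 4 ((N : ℤ) : ℝ) 0 1 (primN_pos N) one_pos
  rw [heq'] at t1
  have hlim := tendsto_nhds_unique t1 t2
  have hgD' : ((g : ℝ) * D : ℝ) = ((N : ℤ) : ℝ) * 1 := by rw [mul_one]; exact_mod_cast hgD
  rw [hgD'] at hlim
  have hNz : ((((N : ℤ) : ℝ) * 1 : ℝ) : ℂ) ^ ((4 : ℤ) - 1) ≠ 0 := by
    apply zpow_ne_zero
    simpa using hN
  simp only [one_mul, Complex.ofReal_one, one_zpow, mul_one] at hlim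
  have hD4 : ((D : ℝ) : ℂ) ^ (-(4 : ℤ)) = 1 := by
    have := mul_left_cancel₀ (by simpa using hNz) (hlim.trans (mul_one _).symm)
    exact this
  have hD4' : (D : ℝ) ^ 4 = 1 := by
    have h : ((D : ℝ) : ℂ) ^ 4 = 1 := by
      rw [zpow_neg, inv_eq_one] at hD4
      exact_mod_cast hD4
    exact_mod_cast h
  have hDone : (D : ℝ) = 1 := by
    have := (pow_eq_one_iff_of_nonneg hDR.le (by norm_num : (4 : ℕ) ≠ 0)).mp hD4'
    exact this
  have hDi : D = 1 := by exact_mod_cast hDone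
  apply hγ
  rw [Gamma0_mem]
  exact (ZMod.intCast_zmod_eq_zero_iff_dvd _ _).mpr (hD1 hDi)

theorem exists_prim (N : ℕ) [NeZero N] : ∃ h : ModularForm (Gamma0 N) 4,
    (∃ P : PowerSeries ℤ, qExpansion 1 h = P.map (Int.castRingHom ℂ)) ∧
    ∀ γ : SL(2, ℤ), γ ∉ Gamma0 N → (⇑h : ℍ → ℂ) ∣[(4 : ℤ)] γ ≠ ⇑h :=
  ⟨primForm N, ⟨_, primForm_qExpansion N⟩, primForm_slash_ne N⟩

end Fermat.Agent.S23
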