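/-
Function-level `q`-expansion calculus: `An F` means that the cusp function of `F` is analytic at `0`;
on such functions `qExpansion 1` is additive and multiplicative.
-/
import Fermat.Agent.S23.Defs

set_option autoImplicit false

open UpperHalfPlane ModularForm CongruenceSubgroup
open scoped MatrixGroups

namespace Fermat.Agent.S23

/-- The cusp function (period 1) of `F` is analytic at `0`. -/
def An (F : ℍ → ℂ) : Prop := AnalyticAt ℂ (cuspFunction 1 F) 0

lemma An.mul {F G : ℍ → ℂ} (hF : An F) (hG : An G) : An (F * G) := by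
  unfold An at *
  rw [cuspFunction_mul hF.continuousAt hG.continuousAt]
  exact hF.mul hG

lemma An.add {F G : ℍ → ℂ} (hF : An F) (hG : An G) : An (F + G) := by
  unfold An at *
  rw [cuspFunction_add hF.continuousAt hG.continuousAt]
  exact hF.add hG

lemma An.smul {F : ℍ → ℂ} (hF : An F) (c : ℂ) : An (c • F) := by
  unfold An at *
  rw [cuspFunction_smul hF.continuousAt]
  exact hF.const_smul

lemma An.of_mf {Γ : Subgroup (GL (Fin 2) ℝ)} (hΓ : (1 : ℝ) ∈ Γ.strictPeriods) {k : ℤ}
    {F : Type*} [FunLike F ℍ ℂ] [ModularFormClass F Γ k] (G : F) : An ⇑G :=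
  ModularFormClass.analyticAt_cuspFunction_zero G one_pos hΓ

lemma An.of_Gamma0 {N : ℕ} {k : ℤ} (G : ModularForm (Gamma0 N) k) : An ⇑G :=
  An.of_mf (one_mem_strictPeriods_Gamma0 N) G

lemma An.of_Gamma0_cusp {N : ℕ} {k : ℤ} (G : CuspForm (Gamma0 N) k) : An ⇑G :=
  An.of_mf (one_mem_strictPeriods_Gamma0 N) G

lemma An.of_SL {k : ℤ} (G : ModularForm 𝒮ℒ k) : An ⇑G :=
  An.of_mf one_mem_strictPeriods_SL G

lemma An.of_SL_cusp {k : ℤ} (G : CuspForm 𝒮ℒ k) : An ⇑G :=
  An.of_mf one_mem_strictPeriods_SL G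

lemma An.one : An (1 : ℍ → ℂ) := by
  have := An.of_SL (1 : ModularForm 𝒮ℒ 0)
  simpa using this

lemma An.zero : An (0 : ℍ → ℂ) := by
  have := An.of_SL (0 : ModularForm 𝒮ℒ 0)
  simpa using this

lemma An.pow {F : ℍ → ℂ} (hF : An F) (n : ℕ) : An (F ^ n) := by
  induction n with
  | zero => simpa using An.one
  | succ n ih => rw [pow_succ]; exact ih.mul hF

lemma An.sum {ι : Type*} (s : Finset ι) {F : ι → ℍ → ℂ} (hF : ∀ i ∈ s, An (F i)) :
    An (∑ i ∈ s, F i) := by
  classical
  induction s using Finset.induction_on with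
  | empty => simpa using An.zero
  | insert a s ha ih =>
    rw [Finset.sum_insert ha]
    exact (hF a (Finset.mem_insert_self a s)).add
      (ih fun i hi => hF i (Finset.mem_insert_of_mem hi))

lemma qExp_mul {F G : ℍ → ℂ} (hF : An F) (hG : An G) :
    qExpansion 1 (F * G) = qExpansion 1 F * qExpansion 1 G := qExpansion_mul hF hG

lemma qExp_add {F G : ℍ → ℂ} (hF : An F) (hG : An G) :
    qExpansion 1 (F + G) = qExpansion 1 F + qExpansion 1 G := qExpansion_add hF hG

lemma qExp_smul {F : ℍ → ℂ} (hF : An F) (c : ℂ) :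
    qExpansion 1 (c • F) = c • qExpansion 1 F := qExpansion_smul hF c

lemma qExp_pow {F : ℍ → ℂ} (hF : An F) (n : ℕ) :
    qExpansion 1 (F ^ n) = (qExpansion 1 F) ^ n := by
  induction n with
  | zero => simpa using qExpansion_one 1
  | succ n ih => rw [pow_succ, qExp_mul (hF.pow n) hF, ih, pow_succ]

lemma qExp_sum {ι : Type*} (s : Finset ι) {F : ι → ℍ → ℂ} (hF : ∀ i ∈ s, An (F i)) :
    qExpansion 1 (∑ i ∈ s, F i) = ∑ i ∈ s, qExpansion 1 (F i) := by
  classical
  induction s using Finset.induction_on with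
  | empty => simpa using qExpansion_zero 1
  | insert a s ha ih =>
    rw [Finset.sum_insert ha, Finset.sum_insert ha,
      qExp_add (hF a (Finset.mem_insert_self a s))
        (An.sum s fun i hi => hF i (Finset.mem_insert_of_mem hi)),
      ih fun i hi => hF i (Finset.mem_insert_of_mem hi)]

lemma intSpan_mul_mem {x y : PowerSeries ℂ} (hx : x ∈ intSpan) (hy : y ∈ intSpan) :
    x * y ∈ intSpan := by
  have h := Submodule.mul_mem_mul hx hy
  unfold intSpan at h ⊢
  rw [Submodule.span_mul_span] at h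
  refine Submodule.span_mono ?_ h
  rintro _ ⟨_, ⟨p, rfl⟩, _, ⟨q, rfl⟩, rfl⟩
  exact ⟨p * q, map_mul _ _ _⟩

end Fermat.Agent.S23
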