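/-
Module A (level one).  Every level one modular form is a `ℂ`-linear combination of products of
`E₄`, `E₆` (and `Δ = (E₄³ - E₆²)/1728`), whose `q`-expansions have integer coefficients.
-/
import Fermat.Agent.S23.QExp

set_option autoImplicit false

open UpperHalfPlane ModularForm CongruenceSubgroup EisensteinSeries
open scoped MatrixGroups

namespace Fermat.Agent.S23

/-- integral `q`-expansion -/
def IntQ (F : ℍ → ℂ) : Prop := ∃ P : PowerSeries ℤ, qExpansion 1 F = P.map (Int.castRingHom ℂ)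

lemma IntQ.mul {F G : ℍ → ℂ} (hF : IntQ F) (hG : IntQ G) (aF : An F) (aG : An G) :
    IntQ (F * G) := by
  obtain ⟨P, hP⟩ := hF
  obtain ⟨R, hR⟩ := hG
  exact ⟨P * R, by rw [qExp_mul aF aG, hP, hR, map_mul]⟩

lemma IntQ.pow {F : ℍ → ℂ} (hF : IntQ F) (aF : An F) (n : ℕ) : IntQ (F ^ n) := by
  obtain ⟨P, hP⟩ := hF
  exact ⟨P ^ n, by rw [qExp_pow aF, hP, map_pow]⟩

open scoped ArithmeticFunction.sigma in
lemma intQ_E₄ : IntQ (E₄ : ℍ → ℂ) := by
  refine ⟨PowerSeries.mk fun m => if m = 0 then 1 else 240 * (σ 3 m : ℤ), ?_⟩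
  ext m
  rw [E_qExpansion_coeff _ ⟨2, rfl⟩, PowerSeries.coeff_map, PowerSeries.coeff_mk]
  split_ifs with h
  · simp
  · norm_num [show bernoulli 4 = -1 / 30 by decide +kernel]

open scoped ArithmeticFunction.sigma in
lemma intQ_E₆ : IntQ (E₆ : ℍ → ℂ) := by
  refine ⟨PowerSeries.mk fun m => if m = 0 then 1 else -504 * (σ 5 m : ℤ), ?_⟩
  ext m
  rw [E_qExpansion_coeff _ ⟨3, rfl⟩, PowerSeries.coeff_map, PowerSeries.coeff_mk]
  split_ifs with h
  · simp
  · norm_num [show bernoulli 6 = 1 / 42 by decide +kernel]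

lemma exists_monomial (k : ℤ) (hk : 4 ≤ k) (he : Even k) :
    ∃ G : ModularForm 𝒮ℒ k, IntQ ⇑G ∧ (qExpansion 1 G).coeff 0 = 1 := by
  obtain ⟨a, b, hab⟩ : ∃ a b : ℕ, (a : ℤ) * 4 + (b : ℤ) * 6 = k := by
    obtain ⟨m, hm⟩ := he
    rcases Int.even_or_odd' m with ⟨c, hc | hc⟩
    · exact ⟨c.toNat, 0, by omega⟩
    · exact ⟨(c - 1).toNat, 1, by omega⟩
  refine ⟨ModularForm.mcast hab ((E₄.pow a).mul (E₆.pow b)), ?_, ?_⟩
  · have : ⇑(ModularForm.mcast hab ((E₄.pow a).mul (E₆.pow b))) = (⇑E₄) ^ a * (⇑E₆) ^ b := by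
      ext z; simp
    rw [this]
    exact (intQ_E₄.pow (An.of_SL _) a).mul (intQ_E₆.pow (An.of_SL _) b)
      ((An.of_SL _).pow a) ((An.of_SL _).pow b)
  · have : ⇑(ModularForm.mcast hab ((E₄.pow a).mul (E₆.pow b))) = (⇑E₄) ^ a * (⇑E₆) ^ b := by
      ext z; simp
    rw [this, qExp_mul ((An.of_SL _).pow a) ((An.of_SL _).pow b), qExp_pow (An.of_SL _),
      qExp_pow (An.of_SL _)]
    have h4 := E_qExpansion_coeff_zero (k := 4) (by norm_num) ⟨2, rfl⟩
    have h6 := E_qExpansion_coeff_zero (k := 6) (by norm_num) ⟨3, rfl⟩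
    simp only [PowerSeries.coeff_zero_eq_constantCoeff, map_mul, map_pow] at h4 h6 ⊢
    rw [h4, h6]
    simp

lemma IntQ.mem_intSpan {F : ℍ → ℂ} (hF : IntQ F) : qExpansion 1 F ∈ intSpan := by
  obtain ⟨P, hP⟩ := hF
  rw [hP]
  exact Submodule.subset_span ⟨P, rfl⟩

lemma IntQ.map_eq {F : ℍ → ℂ} (hF : IntQ F) (σ : ℂ →+* ℂ) :
    (qExpansion 1 F).map σ = qExpansion 1 F := by
  obtain ⟨P, hP⟩ := hF
  rw [hP]
  ext n
  simp

lemma qExp_discriminant : qExpansion 1 ModularForm.discriminant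
    = (1 / 1728 : ℂ) • ((qExpansion 1 E₄) ^ 3 - (qExpansion 1 E₆) ^ 2) := by
  have h : ModularForm.discriminant
      = (1 / 1728 : ℂ) • ((⇑E₄) ^ 3 + (-1 : ℂ) • (⇑E₆) ^ 2) := by
    ext z
    rw [discriminant_eq_E₄_cube_sub_E₆_sq]
    simp only [Pi.smul_apply, Pi.add_apply, Pi.pow_apply, smul_eq_mul]
    ring
  have a4 : An (⇑E₄) := An.of_SL _
  have a6 : An (⇑E₆) := An.of_SL _
  rw [h, qExp_smul ((a4.pow 3).add ((a6.pow 2).smul _)), qExp_add (a4.pow 3) ((a6.pow 2).smul _),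
    qExp_smul (a6.pow 2), qExp_pow a4, qExp_pow a6]
  congr 1
  simp [sub_eq_add_neg]

lemma discriminant_mem_intSpan : qExpansion 1 ModularForm.discriminant ∈ intSpan := by
  rw [qExp_discriminant]
  refine intSpan.smul_mem _ (intSpan.sub_mem ?_ ?_)
  · rw [← qExp_pow (An.of_SL _)]
    exact (intQ_E₄.pow (An.of_SL _) 3).mem_intSpan
  · rw [← qExp_pow (An.of_SL _)]
    exact (intQ_E₆.pow (An.of_SL _) 2).mem_intSpan

lemma discriminant_map_eq (σ : ℂ →+* ℂ) :
    (qExpansion 1 ModularForm.discriminant).map σ = qExpansion 1 ModularForm.discriminant := by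
  rw [qExp_discriminant]
  have h1 : ∀ (c : ℂ) (p : PowerSeries ℂ), (c • p).map σ = σ c • p.map σ := by
    intro c p
    ext n
    simp
  rw [h1, map_sub, map_pow, map_pow, intQ_E₄.map_eq, intQ_E₆.map_eq]
  congr 1
  rw [map_div₀, map_one, map_ofNat]

/-- the property to be proved for all level one forms -/
def Good {k : ℤ} (F : ModularForm 𝒮ℒ k) : Prop :=
  qExpansion 1 F ∈ intSpan ∧
    ∀ σ : ℂ →+* ℂ, ∃ F' : ModularForm 𝒮ℒ k, qExpansion 1 F' = (qExpansion 1 F).map σ

lemma good_zero (k : ℤ) : Good (0 : ModularForm 𝒮ℒ k) := by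
  have h0 : qExpansion 1 (⇑(0 : ModularForm 𝒮ℒ k)) = 0 := by
    simpa using qExpansion_zero 1
  refine ⟨by rw [h0]; exact intSpan.zero_mem, fun σ => ⟨0, by rw [h0, map_zero]⟩⟩

lemma good_step (k : ℤ) (ih : ∀ F₁ : ModularForm 𝒮ℒ (k - 12), Good F₁)
    (F : ModularForm 𝒮ℒ k) : Good F := by
  rcases lt_trichotomy k 0 with hk | hk | hk
  · rw [rank_zero_iff_forall_zero.mp (levelOne_neg_weight_rank_zero hk) F]
    exact good_zero k
  · subst hk
    obtain ⟨c, hc⟩ := ModularFormClass.levelOne_weight_zero_const F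
    have h1 : ∀ c : ℂ, qExpansion 1 (Function.const ℍ c) = c • (1 : PowerSeries ℂ) := by
      intro c
      have : Function.const ℍ c = c • (1 : ℍ → ℂ) := by ext z; simp
      rw [this, qExp_smul An.one, qExpansion_one]
    refine ⟨?_, fun σ => ⟨ModularForm.const (σ c), ?_⟩⟩
    · rw [hc, h1]
      exact intSpan.smul_mem _ (Submodule.subset_span ⟨1, by simp⟩)
    · rw [hc, h1, ModularForm.coe_const, h1]
      ext n
      simp [PowerSeries.coeff_one]
      split_ifs <;> simp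
  · rcases Int.even_or_odd k with he | ho
    swap
    · rw [levelOne_odd_weight_eq_zero ho F]
      exact good_zero k
    by_cases h2 : k = 2
    · subst h2
      rw [rank_zero_iff_forall_zero.mp levelOne_weight_two_rank_zero F]
      exact good_zero 2
    have hk4 : 4 ≤ k := by
      obtain ⟨m, hm⟩ := he
      omega
    obtain ⟨G, hGi, hG0⟩ := exists_monomial k hk4 he
    have hcusp := (isCuspForm_iff_coeffZero_eq_zero _).mp (sub_smul_isCuspForm F G hG0)
    generalize (qExpansion 1 F).coeff 0 = c at hcusp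
    set F₁ : ModularForm 𝒮ℒ (k - 12) := CuspForm.discriminantEquiv (toCuspForm (F - c • G) hcusp)
      with hF₁
    have hdec := qExpansion_eq_qExpansion_discriminant_mul (F - c • G) hcusp
    rw [← hF₁] at hdec
    have hsub : qExpansion 1 (⇑(F - c • G)) = qExpansion 1 F - c • qExpansion 1 G := by
      rw [FunLike.coe_sub, ModularForm.qExpansion_sub one_pos one_mem_strictPeriods_SL,
        FunLike.coe_smul, ModularForm.qExpansion_smul one_pos one_mem_strictPeriods_SL]
    have hF : qExpansion 1 F = c • qExpansion 1 G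
        + qExpansion 1 ModularForm.discriminant * qExpansion 1 F₁ := by
      rw [← hdec, hsub]; ring
    obtain ⟨i1, s1⟩ := ih F₁
    refine ⟨?_, fun σ => ?_⟩
    · rw [hF]
      exact intSpan.add_mem (intSpan.smul_mem _ hGi.mem_intSpan)
        (intSpan_mul_mem discriminant_mem_intSpan i1)
    · obtain ⟨F₁', hF₁'⟩ := s1 σ
      refine ⟨σ c • G + CuspForm.toModularFormₗ (CuspForm.ofMulDiscriminant F₁'), ?_⟩
      have h3 : ⇑(σ c • G + CuspForm.toModularFormₗ (CuspForm.ofMulDiscriminant F₁'))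
          = σ c • ⇑G + ModularForm.discriminant * ⇑F₁' := by
        ext z
        rfl
      have aΔ : An ModularForm.discriminant := An.of_SL_cusp CuspForm.discriminant
      rw [h3, qExp_add ((An.of_SL G).smul _) (aΔ.mul (An.of_SL F₁')), qExp_smul (An.of_SL G),
        qExp_mul aΔ (An.of_SL F₁'), hF, map_add, map_mul, discriminant_map_eq, hF₁']
      congr 1
      have h5 : (c • qExpansion 1 ⇑G).map σ = σ c • (qExpansion 1 ⇑G).map σ := by
        ext n
        simp
      rw [h5, hGi.map_eq σ]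

theorem good_all : ∀ (n : ℕ) (k : ℤ), k < n → ∀ F : ModularForm 𝒮ℒ k, Good F := by
  intro n
  induction n with
  | zero =>
    intro k hk F
    rw [rank_zero_iff_forall_zero.mp (levelOne_neg_weight_rank_zero (by simpa using hk)) F]
    exact good_zero k
  | succ n ih =>
    intro k hk F
    exact good_step k (ih (k - 12) (by push_cast at hk; omega)) F

theorem levelOne_exists_map (σ : ℂ →+* ℂ) {k : ℤ} (F : ModularForm 𝒮ℒ k) :
    ∃ F' : ModularForm 𝒮ℒ k, qExpansion 1 F' = (qExpansion 1 F).map σ :=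
  (good_all (k.toNat + 1) k (by omega) F).2 σ

theorem levelOne_qExpansion_mem_intSpan {k : ℤ} (F : ModularForm 𝒮ℒ k) :
    qExpansion 1 F ∈ intSpan :=
  (good_all (k.toNat + 1) k (by omega) F).1

end Fermat.Agent.S23
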