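/-
Module F (bounded denominators).  Pure algebra, no modular forms.
-/
import Fermat.Agent.S23.Defs

set_option autoImplicit false

namespace Fermat.Agent.S23

open Polynomial in
/-- abstract form: an element of an overdomain which is a fraction of elements of an integrally
closed domain `R` and integral over `R` lies in `R`. -/
theorem bdd_abstract {R S : Type*} [CommRing R] [IsDomain R] [IsIntegrallyClosed R]
    [CommRing S] [IsDomain S] (ι : R →+* S) (hι : Function.Injective ι)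
    (ψ : S) (a' b' : R) (hb' : b' ≠ 0) (h1 : ψ * ι b' = ι a') (μ : ℕ) (c : ℕ → R)
    (h2 : ψ ^ (μ + 1) + ∑ j ∈ Finset.range (μ + 1), ι (c j) * ψ ^ (μ - j) = 0) :
    ∃ r : R, ψ = ι r := by
  let K := FractionRing R
  have hbK : algebraMap R K b' ≠ 0 := by
    simpa using hb'
  let κ : K := algebraMap R K a' / algebraMap R K b'
  have hκ : κ * algebraMap R K b' = algebraMap R K a' := div_mul_cancel₀ _ hbK
  -- the key identity in R
  have hR : a' ^ (μ + 1) + ∑ j ∈ Finset.range (μ + 1), c j * (a' ^ (μ - j) * b' ^ (j + 1)) = 0 := by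
    apply hι
    rw [map_zero, map_add, map_pow, map_sum, ← h1]
    have : ∀ j ∈ Finset.range (μ + 1), ι (c j * (a' ^ (μ - j) * b' ^ (j + 1)))
        = ι b' ^ (μ + 1) * (ι (c j) * ψ ^ (μ - j)) := by
      intro j hj
      have hj' : j ≤ μ := Nat.lt_succ_iff.mp (Finset.mem_range.mp hj)
      rw [map_mul, map_mul, map_pow, map_pow, ← h1, mul_pow]
      have : ι b' ^ (μ + 1) = ι b' ^ (μ - j) * ι b' ^ (j + 1) := by
        rw [← pow_add]; congr 1; omega
      rw [this]; ring
    rw [Finset.sum_congr rfl this, ← Finset.mul_sum, mul_pow, mul_comm (ψ ^ (μ + 1)), ← mul_add, h2,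
      mul_zero]
  have hK : κ ^ (μ + 1) + ∑ j ∈ Finset.range (μ + 1), algebraMap R K (c j) * κ ^ (μ - j) = 0 := by
    have hne : algebraMap R K b' ^ (μ + 1) ≠ 0 := pow_ne_zero _ hbK
    apply mul_left_cancel₀ hne
    rw [mul_zero]
    have h3 := congrArg (algebraMap R K) hR
    rw [map_zero, map_add, map_pow, map_sum, ← hκ] at h3
    rw [← h3, mul_add, Finset.mul_sum]
    congr 1
    · ring
    · apply Finset.sum_congr rfl
      intro j hj
      have hj' : j ≤ μ := Nat.lt_succ_iff.mp (Finset.mem_range.mp hj)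
      rw [map_mul, map_mul, map_pow, map_pow, ← hκ, mul_pow]
      have : algebraMap R K b' ^ (μ + 1) = algebraMap R K b' ^ (μ - j) * algebraMap R K b' ^ (j + 1) := by
        rw [← pow_add]; congr 1; omega
      rw [this]; ring
  have hint : IsIntegral R κ := by
    let q : R[X] := ∑ j ∈ Finset.range (μ + 1), C (c j) * X ^ (μ - j)
    have hq : q.degree < ((μ + 1 : ℕ) : WithBot ℕ) := by
      apply lt_of_le_of_lt (Polynomial.degree_sum_le _ _)
      rw [Finset.sup_lt_iff (by exact WithBot.bot_lt_coe _)]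
      intro j _
      apply lt_of_le_of_lt (Polynomial.degree_C_mul_X_pow_le _ _)
      exact_mod_cast Nat.lt_succ_of_le (Nat.sub_le _ _)
    refine ⟨X ^ (μ + 1) + q, Polynomial.monic_X_pow_add hq, ?_⟩
    rw [← Polynomial.aeval_def]
    simp only [q, map_add, map_pow, aeval_X, map_sum, map_mul, aeval_C]
    exact hK
  obtain ⟨r, hr⟩ := IsIntegrallyClosed.isIntegral_iff.mp hint
  refine ⟨r, ?_⟩
  have h4 : r * b' = a' := by
    apply IsFractionRing.injective R K
    rw [map_mul, hr, hκ]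
  have hιb : ι b' ≠ 0 := by
    intro h0
    exact hb' (hι (by rw [h0, map_zero]))
  apply mul_right_cancel₀ hιb
  rw [h1, ← h4, map_mul]

/-- apply a `ℚ`-linear functional coefficientwise. -/
noncomputable def bddPush (ρ : ℂ →ₗ[ℚ] ℚ) (ψ : PowerSeries ℂ) : PowerSeries ℚ :=
  PowerSeries.mk fun n => ρ (ψ.coeff n)

theorem bddPush_coeff (ρ : ℂ →ₗ[ℚ] ℚ) (ψ : PowerSeries ℂ) (n : ℕ) :
    (bddPush ρ ψ).coeff n = ρ (ψ.coeff n) := by
  simp [bddPush]

theorem bddPush_add (ρ : ℂ →ₗ[ℚ] ℚ) (ψ ψ' : PowerSeries ℂ) :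
    bddPush ρ (ψ + ψ') = bddPush ρ ψ + bddPush ρ ψ' := by
  ext n
  simp [bddPush_coeff]

theorem bddPush_zero (ρ : ℂ →ₗ[ℚ] ℚ) : bddPush ρ 0 = 0 := by
  ext n
  simp [bddPush_coeff]

theorem bddPush_sum (ρ : ℂ →ₗ[ℚ] ℚ) {ι : Type*} (s : Finset ι) (F : ι → PowerSeries ℂ) :
    bddPush ρ (∑ i ∈ s, F i) = ∑ i ∈ s, bddPush ρ (F i) := by
  ext n
  simp [bddPush_coeff]

theorem bddPush_mul (ρ : ℂ →ₗ[ℚ] ℚ) (φ : PowerSeries ℚ) (ψ : PowerSeries ℂ) :
    bddPush ρ (ψ * φ.map (algebraMap ℚ ℂ)) = bddPush ρ ψ * φ := by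
  ext n
  rw [bddPush_coeff, PowerSeries.coeff_mul, PowerSeries.coeff_mul, map_sum]
  apply Finset.sum_congr rfl
  intro x _
  rw [bddPush_coeff, PowerSeries.coeff_map, mul_comm, ← Algebra.smul_def, map_smul, smul_eq_mul,
    mul_comm]

/-- bounded denominators -/
def BD (ψ : PowerSeries ℚ) : Prop :=
  ∃ m : ℤ, m ≠ 0 ∧ ∃ P : PowerSeries ℤ,
    PowerSeries.C (m : ℚ) * ψ = P.map (Int.castRingHom ℚ)

theorem BD_zero : BD 0 := ⟨1, one_ne_zero, 0, by simp⟩

theorem BD_add {ψ ψ' : PowerSeries ℚ} (h : BD ψ) (h' : BD ψ') : BD (ψ + ψ') := by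
  obtain ⟨m, hm, P, hP⟩ := h
  obtain ⟨m', hm', P', hP'⟩ := h'
  refine ⟨m * m', mul_ne_zero hm hm', PowerSeries.C m' * P + PowerSeries.C m * P', ?_⟩
  rw [map_add, map_mul, map_mul, ← hP, ← hP', PowerSeries.map_C, PowerSeries.map_C]
  simp only [Int.cast_mul, map_mul, eq_intCast]
  ring

theorem BD_push (ρ : ℂ →ₗ[ℚ] ℚ) {ψ : PowerSeries ℂ} (h : ψ ∈ intSpan) : BD (bddPush ρ ψ) := by
  unfold intSpan at h
  induction h using Submodule.span_induction generalizing ρ with
  | mem x hx =>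
    obtain ⟨P, rfl⟩ := hx
    refine ⟨(ρ 1).den, by exact_mod_cast (ρ 1).den_ne_zero, PowerSeries.C (ρ 1).num * P, ?_⟩
    ext n
    rw [PowerSeries.coeff_C_mul, bddPush_coeff, PowerSeries.coeff_map, PowerSeries.coeff_map,
      PowerSeries.coeff_C_mul]
    have h1 : ρ ((Int.castRingHom ℂ) (P.coeff n)) = (P.coeff n : ℚ) * ρ 1 := by
      have : (Int.castRingHom ℂ) (P.coeff n) = ((P.coeff n : ℤ) : ℚ) • (1 : ℂ) := by
        simp [Algebra.smul_def]
      rw [this, map_smul, smul_eq_mul]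
    rw [h1]
    have h2 : ((ρ 1).den : ℚ) * ρ 1 = (ρ 1).num := Rat.den_mul_eq_num (ρ 1)
    simp only [eq_intCast, Int.cast_mul, Int.cast_natCast]
    rw [← h2]; ring
  | zero => rw [bddPush_zero]; exact BD_zero
  | add x y _ _ hx hy => rw [bddPush_add]; exact BD_add (hx ρ) (hy ρ)
  | smul a x _ hx =>
    have : bddPush ρ (a • x) = bddPush (ρ.comp ((LinearMap.mulLeft ℂ a).restrictScalars ℚ)) x := by
      ext n
      simp [bddPush_coeff]
    rw [this]
    exact hx _

theorem BD_common {ι : Type*} (s : Finset ι) (E : ι → PowerSeries ℚ) (h : ∀ j ∈ s, BD (E j)) :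
    ∃ M : ℤ, M ≠ 0 ∧ ∀ j ∈ s, ∃ P : PowerSeries ℤ,
      PowerSeries.C (M : ℚ) * E j = P.map (Int.castRingHom ℚ) := by
  classical
  induction s using Finset.induction_on with
  | empty => exact ⟨1, one_ne_zero, by simp⟩
  | insert i s hi ih =>
    obtain ⟨M, hM, hMs⟩ := ih (fun j hj => h j (Finset.mem_insert_of_mem hj))
    obtain ⟨m, hm, P, hP⟩ := h i (Finset.mem_insert_self i s)
    refine ⟨M * m, mul_ne_zero hM hm, fun j hj => ?_⟩
    rcases Finset.mem_insert.mp hj with rfl | hj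
    · refine ⟨PowerSeries.C M * P, ?_⟩
      rw [map_mul, ← hP, PowerSeries.map_C]
      simp only [Int.cast_mul, map_mul, eq_intCast]
      ring
    · obtain ⟨Q, hQ⟩ := hMs j hj
      refine ⟨PowerSeries.C m * Q, ?_⟩
      rw [map_mul, ← hQ, PowerSeries.map_C]
      simp only [Int.cast_mul, map_mul, eq_intCast]
      ring

theorem exists_functional (x : ℂ) (hx : x ≠ 0) : ∃ ρ : ℂ →ₗ[ℚ] ℚ, ρ x = 1 := by
  have h := (Module.forall_dual_apply_eq_zero_iff ℚ x).not.mpr hx
  push Not at h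
  obtain ⟨f, hf⟩ := h
  refine ⟨(f x)⁻¹ • f, ?_⟩
  simp [hf]

theorem map_int_injective :
    Function.Injective (PowerSeries.map (Int.castRingHom ℚ)) :=
  PowerSeries.map_injective _ (RingHom.injective_int _)

theorem bounded_denominators (φ : PowerSeries ℚ) (μ : ℕ) (e : ℕ → PowerSeries ℂ)
    (he : ∀ j, e j ∈ intSpan) (a b : PowerSeries ℂ) (ha : a ∈ intSpan) (hb : b ∈ intSpan)
    (hb0 : b ≠ 0) (h1 : φ.map (algebraMap ℚ ℂ) * b = a)
    (h2 : (φ.map (algebraMap ℚ ℂ)) ^ (μ + 1)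
      + ∑ j ∈ Finset.range (μ + 1), e j * (φ.map (algebraMap ℚ ℂ)) ^ (μ - j) = 0) :
    ∃ m : ℤ, m ≠ 0 ∧ ∀ n, ∃ z : ℤ, (m : ℚ) * φ.coeff n = z := by
  classical
  -- a functional detecting `b`
  obtain ⟨n₀, hn₀⟩ : ∃ n, b.coeff n ≠ 0 := by
    by_contra hcon
    push Not at hcon
    exact hb0 (PowerSeries.ext (by simpa using hcon))
  obtain ⟨ρ', hρ'⟩ := exists_functional _ hn₀
  obtain ⟨ρ, hρ⟩ := exists_functional 1 one_ne_zero
  -- push the fraction identity
  have hfrac : bddPush ρ' b * φ = bddPush ρ' a := by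
    rw [← bddPush_mul, mul_comm, h1]
  have hb'ne : bddPush ρ' b ≠ 0 := by
    intro h0
    have := congrArg (PowerSeries.coeff n₀) h0
    rw [bddPush_coeff, hρ'] at this
    simp at this
  obtain ⟨m, hm, hmab⟩ := BD_common (Finset.univ : Finset Bool)
    (fun i => if i then bddPush ρ' a else bddPush ρ' b)
    (fun i _ => by
      cases i
      · simpa using BD_push ρ' hb
      · simpa using BD_push ρ' ha)
  obtain ⟨a', ha'⟩ := hmab true (Finset.mem_univ _)
  obtain ⟨b', hb'⟩ := hmab false (Finset.mem_univ _)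
  simp only [if_true] at ha'
  simp only [Bool.false_eq_true, if_false] at hb'
  -- push the integrality relation
  have hone : ∀ t : ℕ, bddPush ρ ((φ.map (algebraMap ℚ ℂ)) ^ t) = φ ^ t := by
    intro t
    have h3 : bddPush ρ 1 = 1 := by
      ext n
      rw [bddPush_coeff, PowerSeries.coeff_one, PowerSeries.coeff_one]
      split_ifs
      · exact hρ
      · simp
    have := bddPush_mul ρ (φ ^ t) 1
    rwa [one_mul, h3, one_mul, map_pow] at this
  have hint : φ ^ (μ + 1) + ∑ j ∈ Finset.range (μ + 1), bddPush ρ (e j) * φ ^ (μ - j) = 0 := by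
    have h3 := congrArg (bddPush ρ) h2
    rw [bddPush_add, bddPush_zero, bddPush_sum, hone] at h3
    rw [← h3]
    congr 1
    apply Finset.sum_congr rfl
    intro j _
    rw [← map_pow, bddPush_mul]
  obtain ⟨M, hM, hMe⟩ := BD_common (Finset.range (μ + 1)) (fun j => bddPush ρ (e j))
    (fun j _ => BD_push ρ (he j))
  choose! P hP using hMe
  have hmne : (PowerSeries.C (m : ℚ)) ≠ 0 := by
    intro h0
    have := congrArg (PowerSeries.coeff 0) h0
    simp at this
    exact hm this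
  have hb'0 : b' ≠ 0 := by
    intro h0
    rw [h0, map_zero] at hb'
    rcases mul_eq_zero.mp hb' with h | h
    · exact hmne h
    · exact hb'ne h
  obtain ⟨r, hr⟩ := bdd_abstract (PowerSeries.map (Int.castRingHom ℚ)) map_int_injective
    (PowerSeries.C (M : ℚ) * φ) (PowerSeries.C M * a') b' hb'0
    (by
      rw [← hb', map_mul, ← ha', PowerSeries.map_C, ← hfrac]
      simp only [eq_intCast]
      ring)
    μ (fun j => PowerSeries.C (M ^ j) * P j)
    (by
      have : ∀ j ∈ Finset.range (μ + 1),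
          (PowerSeries.map (Int.castRingHom ℚ)) (PowerSeries.C (M ^ j) * P j)
            * (PowerSeries.C (M : ℚ) * φ) ^ (μ - j)
          = PowerSeries.C (M : ℚ) ^ (μ + 1) * (bddPush ρ (e j) * φ ^ (μ - j)) := by
        intro j hj
        have hj' : j ≤ μ := Nat.lt_succ_iff.mp (Finset.mem_range.mp hj)
        rw [map_mul, ← hP j hj, PowerSeries.map_C, mul_pow]
        have h5 : PowerSeries.C (M : ℚ) ^ (μ + 1)
            = PowerSeries.C (M : ℚ) ^ j * PowerSeries.C (M : ℚ) * PowerSeries.C (M : ℚ) ^ (μ - j) := by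
          rw [← pow_succ, ← pow_add]; congr 1; omega
        rw [h5]
        simp only [eq_intCast, map_pow]
        ring
      rw [Finset.sum_congr rfl this, ← Finset.mul_sum, mul_pow, ← mul_add, hint, mul_zero])
  refine ⟨M, hM, fun n => ⟨r.coeff n, ?_⟩⟩
  have := congrArg (PowerSeries.coeff n) hr
  rw [PowerSeries.coeff_C_mul, PowerSeries.coeff_map] at this
  simpa using this

end Fermat.Agent.S23
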