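/-
Module E (descent).  Pure field theory / linear algebra, no modular forms.
-/
import Mathlib

set_option autoImplicit false
set_option linter.style.haveILetI false

namespace Fermat.Agent.S23

/-- A ring automorphism of a subdomain `F` of `ℂ` extends to a ring automorphism of `ℂ`. -/
theorem descent_ext_equiv (F : Type) [CommRing F] [IsDomain F] [Algebra F ℂ] [FaithfulSMul F ℂ]
    (j : F ≃+* F) :
    ∃ σ : ℂ ≃+* ℂ, ∀ a : F, σ (algebraMap F ℂ a) = algebraMap F ℂ (j a) := by
  obtain ⟨ι, B, hB⟩ := exists_isTranscendenceBasis' F ℂ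
  letI := IsAlgClosed.isAlgClosure_of_transcendence_basis B hB
  let e : Algebra.adjoin F (Set.range B) ≃+* Algebra.adjoin F (Set.range B) :=
    hB.1.aevalEquiv.symm.toRingEquiv.trans
      ((MvPolynomial.mapEquiv ι j).trans hB.1.aevalEquiv.toRingEquiv)
  refine ⟨IsAlgClosure.equivOfEquiv ℂ ℂ e, fun a => ?_⟩
  have h1 : algebraMap F ℂ a
      = algebraMap (Algebra.adjoin F (Set.range B)) ℂ (algebraMap F _ a) := rfl
  rw [h1, IsAlgClosure.equivOfEquiv_algebraMap]
  have h2 : e (algebraMap F _ a) = algebraMap F _ (j a) := by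
    simp only [e, RingEquiv.trans_apply, AlgEquiv.coe_ringEquiv]
    rw [AlgEquiv.commutes]
    simp only [MvPolynomial.algebraMap_eq, MvPolynomial.mapEquiv_apply, MvPolynomial.map_C,
      RingHom.coe_coe]
    rw [← MvPolynomial.algebraMap_eq, AlgEquiv.commutes]
  rw [h2]
  rfl

theorem exists_ringHom_ne (x : ℂ) (hx : x ∉ Set.range ((↑) : ℚ → ℂ)) :
    ∃ σ : ℂ →+* ℂ, σ x ≠ x := by
  by_cases halg : IsAlgebraic ℚ x
  · -- algebraic case
    let A := algebraicClosure ℚ ℂ
    have hxA : x ∈ A := (mem_algebraicClosure_iff).mpr halg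
    haveI : IsAlgClosure ℚ A := algebraicClosure.isAlgClosure ℚ ℂ
    haveI : IsGalois ℚ A := IsAlgClosure.isGalois ℚ A
    have hnot : (⟨x, hxA⟩ : A) ∉ (⊥ : IntermediateField ℚ A) := by
      intro hbot
      obtain ⟨r, hr⟩ := IntermediateField.mem_bot.mp hbot
      apply hx
      refine ⟨r, ?_⟩
      have := congrArg (Subtype.val) hr
      simpa using this
    rw [InfiniteGalois.mem_bot_iff_fixed] at hnot
    push Not at hnot
    obtain ⟨f, hf⟩ := hnot
    obtain ⟨σ, hσ⟩ := descent_ext_equiv A f.toRingEquiv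
    refine ⟨σ.toRingHom, fun h => hf ?_⟩
    have h1 := hσ ⟨x, hxA⟩
    apply Subtype.ext
    have h2 : σ x = ((f ⟨x, hxA⟩ : A) : ℂ) := h1
    have h3 : σ x = x := h
    rw [← h2, h3]
  · -- transcendental case
    have htr : Transcendental ℚ x := halg
    letI : Algebra (Polynomial ℚ) ℂ := (Polynomial.aeval x).toRingHom.toAlgebra
    haveI : FaithfulSMul (Polynomial ℚ) ℂ := by
      rw [faithfulSMul_iff_algebraMap_injective]
      exact transcendental_iff_injective.mp htr
    obtain ⟨σ, hσ⟩ := descent_ext_equiv (Polynomial ℚ) (Polynomial.algEquivAevalXAddC (1 : ℚ)).toRingEquiv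
    refine ⟨σ.toRingHom, fun h => ?_⟩
    have h1 := hσ Polynomial.X
    have h2 : algebraMap (Polynomial ℚ) ℂ Polynomial.X = x := by
      show Polynomial.aeval x Polynomial.X = x
      simp
    have h3 : algebraMap (Polynomial ℚ) ℂ
        ((Polynomial.algEquivAevalXAddC (1 : ℚ)).toRingEquiv Polynomial.X) = x + 1 := by
      show Polynomial.aeval x ((Polynomial.algEquivAevalXAddC (1 : ℚ)) Polynomial.X) = x + 1
      simp [Polynomial.algEquivAevalXAddC]
    rw [h2, h3] at h1
    have h4 : σ x = x := h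
    rw [h4] at h1
    simp at h1

theorem descent {V : Type*} [AddCommGroup V] [Module ℂ V] [FiniteDimensional ℂ V]
    (c : V →ₗ[ℂ] (ℕ → ℂ)) (hc : Function.Injective c)
    (hσ : ∀ (σ : ℂ →+* ℂ) (v : V), ∃ v' : V, ∀ n, c v' n = σ (c v n)) :
    Submodule.span ℂ {v : V | ∀ n, ∃ r : ℚ, c v n = r} = ⊤ := by
  classical
  let Φ : ℕ → Module.Dual ℂ V := fun n => (LinearMap.proj n).comp c
  have hΦ : ∀ n v, Φ n v = c v n := fun n v => rfl
  have hspan : Submodule.span ℂ (Set.range Φ) = ⊤ := by
    have h0 : (Submodule.span ℂ (Set.range Φ)).dualCoannihilator = ⊥ := by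
      rw [eq_bot_iff]
      intro v hv
      rw [Submodule.mem_dualCoannihilator] at hv
      rw [Submodule.mem_bot]
      apply hc
      rw [map_zero]
      funext n
      exact hv (Φ n) (Submodule.subset_span ⟨n, rfl⟩)
    rw [← Subspace.dualCoannihilator_dualAnnihilator_eq (W := Submodule.span ℂ (Set.range Φ)), h0,
      Submodule.dualAnnihilator_bot]
  obtain ⟨b, hbsub, hbspan, hbli⟩ := exists_linearIndependent ℂ (Set.range Φ)
  let β : Module.Basis b ℂ (Module.Dual ℂ V) :=
    Module.Basis.mk hbli (by rw [Subtype.range_coe, hbspan, hspan])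
  have hβ : ∀ j : b, β j = (j : Module.Dual ℂ V) := fun j => by simp [β]
  haveI : Finite b := Module.Finite.finite_basis β
  haveI : Fintype b := Fintype.ofFinite b
  let w : Module.Basis b ℂ V := β.dualBasis.map (Module.evalEquiv ℂ V).symm
  have hw : ∀ i j : b, (β j) (w i) = if i = j then 1 else 0 := by
    intro i j
    have h1 : Module.evalEquiv ℂ V (w i) = β.dualBasis i := by simp [w]
    have h2 : (Module.evalEquiv ℂ V (w i)) (β j) = (β j) (w i) := by simp
    rw [← h2, h1, Module.Basis.dualBasis_apply_self]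
    simp [eq_comm]
  have hrat : ∀ i, w i ∈ {v : V | ∀ n, ∃ r : ℚ, c v n = r} := by
    intro i n
    by_contra hcon
    have hx : c (w i) n ∉ Set.range ((↑) : ℚ → ℂ) := by
      rintro ⟨r, hr⟩
      exact hcon ⟨r, hr.symm⟩
    obtain ⟨σ, hσne⟩ := exists_ringHom_ne _ hx
    obtain ⟨v', hv'⟩ := hσ σ (w i)
    have hveq : v' = w i := by
      apply (Module.evalEquiv ℂ V).injective
      apply β.ext
      intro j
      obtain ⟨m, hm⟩ := hbsub j.2
      have e1 : (Module.evalEquiv ℂ V v') (β j) = (β j) v' := by simp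
      have e2 : (Module.evalEquiv ℂ V (w i)) (β j) = (β j) (w i) := by simp
      rw [e1, e2]
      have e3 : (β j) v' = σ ((β j) (w i)) := by
        rw [hβ, ← hm, hΦ, hΦ, hv']
      rw [e3, hw]
      split_ifs <;> simp
    apply hσne
    rw [← hv' n, hveq]
  rw [eq_top_iff, ← w.span_eq]
  apply Submodule.span_mono
  rintro _ ⟨i, rfl⟩
  exact hrat i

end Fermat.Agent.S23
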