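/-
Module G (assembly): `CuspForm.HasIntegralStructure N k` for all `N ≥ 1` and all weights `k`.
-/
import Fermat.Agent.S23.QExp
import Fermat.Agent.S23.LevelOne
import Fermat.Agent.S23.Prim
import Fermat.Agent.S23.Pres
import Fermat.Agent.S23.Conv
import Fermat.Agent.S23.Descent
import Fermat.Agent.S23.Bdd
import Fermat.Prelude.Thm_ModularForm_sturm_bound_Gamma0
import Fermat.Prelude.Thm_CuspForm_intLattice_fg

set_option autoImplicit false

open UpperHalfPlane ModularForm CongruenceSubgroup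
open scoped MatrixGroups

namespace Fermat.Agent.S23

variable {N : ℕ}

lemma Gamma0_map_le_SL (N : ℕ) :
    (Subgroup.map (Matrix.SpecialLinearGroup.mapGL ℝ) (Gamma0 N)) ≤ 𝒮ℒ := by
  rintro _ ⟨γ, -, rfl⟩
  exact ⟨γ, rfl⟩

/-- Restriction of a level one form to `Γ₀(N)`. -/
def restrictLevel (N : ℕ) {k : ℤ} (G : ModularForm 𝒮ℒ k) : ModularForm (Gamma0 N) k where
  toFun := G
  slash_action_eq' γ hγ := G.slash_action_eq' γ (Gamma0_map_le_SL N hγ)
  holo' := G.holo'
  bdd_at_cusps' hc := G.bdd_at_cusps' (hc.mono (Gamma0_map_le_SL N))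

@[simp] lemma coe_restrictLevel (N : ℕ) {k : ℤ} (G : ModularForm 𝒮ℒ k) :
    ⇑(restrictLevel N G) = ⇑G := rfl

theorem Gen.isMF {h : ModularForm (Gamma0 N) 4} {k : ℤ} {F : ℍ → ℂ} (hF : Gen (⇑h) k F) :
    ∃ G : ModularForm (Gamma0 N) k, ⇑G = F := by
  induction hF with
  | lvl1 G => exact ⟨restrictLevel N G, rfl⟩
  | prim => exact ⟨h, rfl⟩
  | add _ _ ih1 ih2 =>
    obtain ⟨G1, rfl⟩ := ih1
    obtain ⟨G2, rfl⟩ := ih2
    exact ⟨G1 + G2, rfl⟩
  | mul _ _ ih1 ih2 =>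
    obtain ⟨G1, rfl⟩ := ih1
    obtain ⟨G2, rfl⟩ := ih2
    exact ⟨G1.mul G2, rfl⟩

theorem Gen.an {h : ModularForm (Gamma0 N) 4} {k : ℤ} {F : ℍ → ℂ} (hF : Gen (⇑h) k F) :
    An F := by
  obtain ⟨G, rfl⟩ := hF.isMF
  exact An.of_Gamma0 G

theorem Gen.twist {h : ModularForm (Gamma0 N) 4} (σ : ℂ →+* ℂ)
    (hσ : (qExpansion 1 h).map σ = qExpansion 1 h) {k : ℤ} {F : ℍ → ℂ} (hF : Gen (⇑h) k F) :
    ∃ F' : ℍ → ℂ, Gen (⇑h) k F' ∧ qExpansion 1 F' = (qExpansion 1 F).map σ := by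
  induction hF with
  | lvl1 G =>
    obtain ⟨G', hG'⟩ := levelOne_exists_map σ G
    exact ⟨G', .lvl1 G', hG'⟩
  | prim => exact ⟨h, .prim, hσ.symm⟩
  | add h1 h2 ih1 ih2 =>
    obtain ⟨G1, hG1, e1⟩ := ih1
    obtain ⟨G2, hG2, e2⟩ := ih2
    refine ⟨G1 + G2, .add hG1 hG2, ?_⟩
    rw [qExpansion_add hG1.an hG2.an, qExpansion_add h1.an h2.an, map_add, e1, e2]
  | mul h1 h2 ih1 ih2 =>
    obtain ⟨G1, hG1, e1⟩ := ih1
    obtain ⟨G2, hG2, e2⟩ := ih2
    refine ⟨G1 * G2, .mul hG1 hG2, ?_⟩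
    rw [qExpansion_mul hG1.an hG2.an, qExpansion_mul h1.an h2.an, map_mul, e1, e2]

theorem Gen.mem_intSpan {h : ModularForm (Gamma0 N) 4} (hh : qExpansion 1 h ∈ intSpan)
    {k : ℤ} {F : ℍ → ℂ} (hF : Gen (⇑h) k F) : qExpansion 1 F ∈ intSpan := by
  induction hF with
  | lvl1 G => exact levelOne_qExpansion_mem_intSpan G
  | prim => exact hh
  | add h1 h2 ih1 ih2 =>
    rw [qExpansion_add h1.an h2.an]
    exact intSpan.add_mem ih1 ih2
  | mul h1 h2 ih1 ih2 =>
    rw [qExpansion_mul h1.an h2.an]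
    exact intSpan_mul_mem ih1 ih2


/-- **(K)** the space of cusp forms is stable under ring endomorphisms of `ℂ` acting on
`q`-expansion coefficients. -/
theorem exists_twist (N : ℕ) [NeZero N] {k : ℤ} (σ : ℂ →+* ℂ) (f : CuspForm (Gamma0 N) k) :
    ∃ g : CuspForm (Gamma0 N) k, qExpansion 1 g = (qExpansion 1 f).map σ := by
  obtain ⟨h, ⟨P, hP⟩, hh⟩ := exists_prim N
  obtain ⟨μ, e, W, a, b, ha, hb, hb0, hfb, hpol⟩ := pres N h hh f
  have hσh : (qExpansion 1 h).map σ = qExpansion 1 h := by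
    rw [hP]
    ext n
    simp
  obtain ⟨a', ha', ea⟩ := ha.twist σ hσh
  obtain ⟨b', hb', eb⟩ := hb.twist σ hσh
  obtain ⟨A, rfl⟩ := ha'.isMF
  obtain ⟨B, rfl⟩ := hb'.isMF
  have hf : An ⇑f := An.of_Gamma0_cusp f
  -- twisted coefficients
  have he : ∀ j : ℕ, ∃ e' : CuspForm 𝒮ℒ ((j + 1) * k),
      qExpansion 1 e' = (qExpansion 1 (e j)).map σ := by
    intro j
    obtain ⟨F', hF'⟩ := levelOne_exists_map σ (CuspForm.toModularFormₗ (e j))
    have h0 : (qExpansion 1 F').coeff 0 = 0 := by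
      rw [hF', PowerSeries.coeff_map]
      have : (qExpansion 1 (CuspForm.toModularFormₗ (e j))).coeff 0 = 0 :=
        CuspFormClass.qExpansion_coeff_zero (e j) one_pos one_mem_strictPeriods_SL
      rw [this, map_zero]
    exact ⟨toCuspForm F' h0, hF'⟩
  choose e' he' using he
  have hσinj : Function.Injective (PowerSeries.map σ) :=
    PowerSeries.map_injective σ σ.injective
  refine conv N μ e' A B ?_ _ ?_ ?_
  · -- `B ≠ 0`
    intro hB
    apply hb0
    obtain ⟨B0, rfl⟩ := hb.isMF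
    have h1 : qExpansion 1 B0 = 0 := by
      apply hσinj
      rw [← eb, hB, map_zero]
      exact qExpansion_zero 1
    have := (ModularForm.qExpansion_eq_zero_iff one_pos (one_mem_strictPeriods_Gamma0 N) B0).mp h1
    rw [this]; rfl
  · rw [eb, ea, ← hfb, qExp_mul hf hb.an, map_mul]
  · have h3 := congrArg (qExpansion 1) hpol
    rw [qExp_add (hf.pow _) (An.sum _ fun j _ => (An.of_SL_cusp (e j)).mul (hf.pow _)),
      qExp_pow hf, qExp_sum _ (fun j _ => (An.of_SL_cusp (e j)).mul (hf.pow _)),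
      qExpansion_zero] at h3
    have h4 := congrArg (PowerSeries.map σ) h3
    rw [map_add, map_pow, map_sum, map_zero] at h4
    rw [← h4]
    congr 1
    refine Finset.sum_congr rfl fun j _ => ?_
    rw [qExp_mul (An.of_SL_cusp (e j)) (hf.pow _), qExp_pow hf, map_mul, map_pow, he']

/-- The `q`-expansion coefficient map. -/
noncomputable def coeffMap (N : ℕ) (k : ℤ) : CuspForm (Gamma0 N) k →ₗ[ℂ] (ℕ → ℂ) where
  toFun f n := (qExpansion 1 f).coeff n
  map_add' f g := by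
    ext n
    simp only [FunLike.coe_add, Pi.add_apply]
    rw [qExp_add (An.of_Gamma0_cusp f) (An.of_Gamma0_cusp g), map_add]
  map_smul' c f := by
    ext n
    have h1 : ⇑(c • f) = c • ⇑f := rfl
    simp only [h1, RingHom.id_apply, Pi.smul_apply]
    rw [qExp_smul (An.of_Gamma0_cusp f), PowerSeries.coeff_smul]

lemma coeffMap_apply (N : ℕ) (k : ℤ) (f : CuspForm (Gamma0 N) k) (n : ℕ) :
    coeffMap N k f n = (qExpansion 1 f).coeff n := rfl

open P2MW.S_CuspForm_intLattice_fg.W3WsD in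
lemma truncMap_injective (N : ℕ) [NeZero N] (k : ℤ) : Function.Injective
    ((LinearMap.funLeft ℂ ℂ (fun i : Fin (sturmB N k + 1) => (i : ℕ))).comp (coeffMap N k)) := by
  intro f g hfg
  apply trunc_injective N k
  funext i
  exact congrFun hfg i

lemma coeffMap_injective (N : ℕ) [NeZero N] (k : ℤ) : Function.Injective (coeffMap N k) := by
  intro f g hfg
  apply truncMap_injective N k
  simp only [LinearMap.comp_apply, hfg]

lemma finiteDimensional_cuspForm (N : ℕ) [NeZero N] (k : ℤ) :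
    FiniteDimensional ℂ (CuspForm (Gamma0 N) k) :=
  FiniteDimensional.of_injective _ (truncMap_injective N k)

theorem rational_span (N : ℕ) [NeZero N] (k : ℤ) :
    Submodule.span ℂ {v : CuspForm (Gamma0 N) k | ∀ n, ∃ r : ℚ, coeffMap N k v n = r} = ⊤ := by
  have := finiteDimensional_cuspForm N k
  refine descent (coeffMap N k) (coeffMap_injective N k) fun σ v => ?_
  obtain ⟨g, hg⟩ := exists_twist N σ v
  refine ⟨g, fun n => ?_⟩
  rw [coeffMap_apply, hg, PowerSeries.coeff_map, coeffMap_apply]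

theorem exists_int_multiple (N : ℕ) [NeZero N] {k : ℤ} (f : CuspForm (Gamma0 N) k)
    (hf : ∀ n, ∃ r : ℚ, coeffMap N k f n = r) :
    ∃ m : ℤ, m ≠ 0 ∧ ∀ n, ∃ z : ℤ, (m : ℂ) * coeffMap N k f n = z := by
  choose r hr using hf
  obtain ⟨h, ⟨P, hP⟩, hh⟩ := exists_prim N
  obtain ⟨μ, e, W, a, b, ha, hb, hb0, hfb, hpol⟩ := pres N h hh f
  have hhS : qExpansion 1 h ∈ intSpan := by
    rw [hP]; exact Submodule.subset_span ⟨P, rfl⟩
  have hfA : An ⇑f := An.of_Gamma0_cusp f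
  have hφ : (PowerSeries.mk r).map (algebraMap ℚ ℂ) = qExpansion 1 f := by
    ext n
    rw [PowerSeries.coeff_map, PowerSeries.coeff_mk, ← coeffMap_apply, hr]
    rfl
  have g1 : qExpansion 1 b ≠ 0 := by
    intro h0
    apply hb0
    obtain ⟨B0, rfl⟩ := hb.isMF
    have := (ModularForm.qExpansion_eq_zero_iff one_pos (one_mem_strictPeriods_Gamma0 N) B0).mp h0
    rw [this]; rfl
  have g2 : (PowerSeries.mk r).map (algebraMap ℚ ℂ) * qExpansion 1 b = qExpansion 1 a := by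
    rw [hφ, ← hfb, qExp_mul hfA hb.an]
  have g3 : ((PowerSeries.mk r).map (algebraMap ℚ ℂ)) ^ (μ + 1)
      + ∑ j ∈ Finset.range (μ + 1),
        qExpansion 1 (e j) * ((PowerSeries.mk r).map (algebraMap ℚ ℂ)) ^ (μ - j) = 0 := by
    rw [hφ]
    have h3 := congrArg (qExpansion 1) hpol
    rw [qExp_add (hfA.pow _) (An.sum _ fun j _ => (An.of_SL_cusp (e j)).mul (hfA.pow _)),
      qExp_pow hfA, qExp_sum _ (fun j _ => (An.of_SL_cusp (e j)).mul (hfA.pow _)),
      qExpansion_zero] at h3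
    rw [← h3]
    congr 1
    refine Finset.sum_congr rfl fun j _ => ?_
    rw [qExp_mul (An.of_SL_cusp (e j)) (hfA.pow _), qExp_pow hfA]
  obtain ⟨m, hm, hz⟩ := bounded_denominators (PowerSeries.mk r) μ (fun j => qExpansion 1 (e j))
    (fun j => levelOne_qExpansion_mem_intSpan (CuspForm.toModularFormₗ (e j)))
    (qExpansion 1 a) (qExpansion 1 b) (ha.mem_intSpan hhS) (hb.mem_intSpan hhS) g1 g2 g3
  refine ⟨m, hm, fun n => ?_⟩
  obtain ⟨z, hz⟩ := hz n
  refine ⟨z, ?_⟩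
  rw [hr]
  rw [PowerSeries.coeff_mk] at hz
  exact_mod_cast congrArg (fun x : ℚ => (x : ℂ)) hz

/-- **Main theorem**: `S_k(Γ₀(N))` is spanned by forms with integral `q`-expansion. -/
theorem hasIntegralStructure (N : ℕ) [NeZero N] (k : ℤ) : CuspForm.HasIntegralStructure N k := by
  unfold CuspForm.HasIntegralStructure
  rw [eq_top_iff, ← rational_span N k, Submodule.span_le]
  intro f hf
  obtain ⟨m, hm, hz⟩ := exists_int_multiple N f hf
  have hmem : (m : ℂ) • f ∈ CuspForm.intLattice N k := by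
    refine Submodule.subset_span fun n => ?_
    obtain ⟨z, hz⟩ := hz n
    refine ⟨z, ?_⟩
    rw [← hz]
    have := congrFun ((coeffMap N k).map_smul (m : ℂ) f) n
    exact this
  have hm' : (m : ℂ) ≠ 0 := by exact_mod_cast hm
  have : f = (m : ℂ)⁻¹ • ((m : ℂ) • f) := by
    rw [smul_smul, inv_mul_cancel₀ hm', one_smul]
  rw [this]
  exact Submodule.smul_mem _ _ (Submodule.subset_span hmem)

end Fermat.Agent.S23
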